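import Fermat.Agent.S16.Glue.Qk

/-!
# P-EIS (S16), G-LBF: an integral cusp form congruent to `24 δ` mod `2 (p - 1)` gives the
lower bound `n ∣ Q(eis)` for every `Q` acting as `0` on the lattice.
-/

set_option autoImplicit false

open UpperHalfPlane ModularForm ModularFormClass MatrixGroups CongruenceSubgroup

namespace Fermat.Agent.S16

namespace LBForm

noncomputable section

set_option linter.unusedSectionVars false

variable (p : ℕ) [Fact p.Prime]

/-- `U_p` preserves congruences to `c δ`. -/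
lemma congDelta_U (c M : ℤ) (f : CuspForm (Gamma0 p) 2) (hf : CongDelta p c M f) :
    CongDelta p c M (CuspForm.heckeULin 2 (dvd_refl p) f) := by
  have hp : p.Prime := Fact.out
  intro k hk
  have hkp : 1 ≤ k * p := Nat.one_le_iff_ne_zero.mpr
    (Nat.mul_ne_zero (Nat.one_le_iff_ne_zero.mp hk) hp.ne_zero)
  obtain ⟨x, hx⟩ := hf (k * p) hkp
  refine ⟨x, ?_⟩
  have h := Fermat.Agent.S49.qCoeff_heckeULin hp (dvd_refl p) f k
  change PowerSeries.coeff k (qExpansion 1 ⇑(CuspForm.heckeULin 2 (dvd_refl p) f)) =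
    PowerSeries.coeff (k * p) (qExpansion 1 ⇑f) at h
  rw [h, hx, SigmaP.sigmaP_mul_self p hp k]

/-- `T_ℓ` multiplies the congruence constant by `1 + ℓ`. -/
lemma congDelta_T (c M : ℤ) {ℓ : ℕ} (hℓ : ℓ.Prime) (hndvd : ¬ ℓ ∣ p)
    (f : CuspForm (Gamma0 p) 2) (hf : CongDelta p c M f) :
    CongDelta p (c * (1 + (ℓ : ℤ))) M (CuspForm.heckeTLin 2 hℓ hndvd f) := by
  have hp : p.Prime := Fact.out
  have hne : ℓ ≠ p := fun h => hndvd (h ▸ dvd_refl ℓ)
  intro k hk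
  have hkpos : 0 < k := hk
  have hkℓ : 1 ≤ k * ℓ := Nat.one_le_iff_ne_zero.mpr
    (Nat.mul_ne_zero (Nat.one_le_iff_ne_zero.mp hk) hℓ.ne_zero)
  obtain ⟨x, hx⟩ := hf (k * ℓ) hkℓ
  have h := Fermat.Agent.S49.qCoeff_heckeTLin hℓ hndvd f k
  change PowerSeries.coeff k (qExpansion 1 ⇑(CuspForm.heckeTLin 2 hℓ hndvd f)) =
    PowerSeries.coeff (k * ℓ) (qExpansion 1 ⇑f) +
      (if ℓ ∣ k then (ℓ : ℂ) ^ ((2 : ℤ) - 1) * PowerSeries.coeff (k / ℓ) (qExpansion 1 ⇑f)
        else 0) at h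
  have hS := SigmaP.sigmaP_mul_prime p ℓ hp hℓ hne k hkpos
  by_cases hd : ℓ ∣ k
  · have hkl : 1 ≤ k / ℓ := Nat.div_pos (Nat.le_of_dvd hkpos hd) hℓ.pos
    obtain ⟨y, hy⟩ := hf (k / ℓ) hkl
    refine ⟨x + ℓ * y, ?_⟩
    rw [h, if_pos hd, hx, hy]
    rw [if_pos hd] at hS
    have hS' : ((sigmaP p (k * ℓ) : ℕ) : ℤ) + (ℓ : ℤ) * (sigmaP p (k / ℓ) : ℤ) =
        (1 + (ℓ : ℤ)) * (sigmaP p k : ℤ) := by exact_mod_cast hS
    have hz : (c * (1 + (ℓ : ℤ)) * (sigmaP p k : ℤ) + M * (x + ℓ * y) : ℤ) =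
        (c * (sigmaP p (k * ℓ) : ℤ) + M * x) + (ℓ : ℤ) * (c * (sigmaP p (k / ℓ) : ℤ) + M * y) := by
      linear_combination (-c) * hS'
    rw [hz]
    push_cast
    norm_num
  · refine ⟨x, ?_⟩
    rw [h, if_neg hd, add_zero, hx]
    rw [if_neg hd, add_zero] at hS
    have hS' : ((sigmaP p (k * ℓ) : ℕ) : ℤ) = (1 + (ℓ : ℤ)) * (sigmaP p k : ℤ) := by
      exact_mod_cast hS
    rw [hS']
    congr 1
    ring

lemma congDelta_add (c₁ c₂ M : ℤ) (f g : CuspForm (Gamma0 p) 2) (hf : CongDelta p c₁ M f)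
    (hg : CongDelta p c₂ M g) : CongDelta p (c₁ + c₂) M (f + g) := by
  intro k hk
  obtain ⟨x, hx⟩ := hf k hk
  obtain ⟨y, hy⟩ := hg k hk
  refine ⟨x + y, ?_⟩
  have h := Fermat.Agent.S49.qCoeff_add_cusp f g k
  change PowerSeries.coeff k (qExpansion 1 ⇑(f + g)) =
    PowerSeries.coeff k (qExpansion 1 ⇑f) + PowerSeries.coeff k (qExpansion 1 ⇑g) at h
  rw [h, hx, hy]
  push_cast
  ring

lemma congDelta_zsmul (c M a : ℤ) (f : CuspForm (Gamma0 p) 2) (hf : CongDelta p c M f) :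
    CongDelta p (c * a) M ((a : ℂ) • f) := by
  intro k hk
  obtain ⟨x, hx⟩ := hf k hk
  refine ⟨a * x, ?_⟩
  have h := Fermat.Agent.S49.qCoeff_smul_cusp (a : ℂ) f k
  change PowerSeries.coeff k (qExpansion 1 ⇑((a : ℂ) • f)) =
    (a : ℂ) * PowerSeries.coeff k (qExpansion 1 ⇑f) at h
  rw [h, hx]
  push_cast
  ring

/-- **Formal Hecke action preserves congruences**: if `f ≡ c δ mod M` then
`Q(T) f ≡ c Q(eis) δ mod M`. -/
theorem congDelta_evalEnd (M : ℤ) (Q : ModularCurve.HeckeAlg) :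
    ∀ (c : ℤ) (f : CuspForm (Gamma0 p) 2), CongDelta p c M f →
      CongDelta p (c * eisEval p Q) M (Qk.evalEnd p Q f) := by
  have hp : p.Prime := Fact.out
  induction Q using MvPolynomial.induction_on with
  | C a =>
    intro c f hf
    have hC : Qk.evalEnd p (MvPolynomial.C a) = algebraMap ℤ _ a := by
      rw [Qk.evalEnd_apply, CuspForm.heckeEvalForms_C]
      rfl
    have hsm : (algebraMap ℤ (Module.End ℂ (CuspForm (Gamma0 p) 2)) a) f = (a : ℂ) • f := by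
      rw [Algebra.algebraMap_eq_smul_one, LinearMap.smul_apply, Module.End.one_apply]
      rw [← Int.cast_smul_eq_zsmul ℂ]
    have hE : eisEval p (MvPolynomial.C a) = a := by
      change MvPolynomial.aeval (R := ℤ) (ModularCurve.eisensteinSystem p)
        (MvPolynomial.C a) = _
      rw [MvPolynomial.aeval_C]
      rfl
    rw [hC, hsm, hE]
    exact congDelta_zsmul p c M a f hf
  | add Q₁ Q₂ h₁ h₂ =>
    intro c f hf
    rw [map_add, map_add, LinearMap.add_apply, mul_add]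
    exact congDelta_add p _ _ M _ _ (h₁ c f hf) (h₂ c f hf)
  | mul_X Q L hQ =>
    intro c f hf
    rw [map_mul, map_mul, Module.End.mul_apply]
    change CongDelta p (c * (eisEval p Q * eisEval p (ModularCurve.heckeGen L))) M
      (Qk.evalEnd p Q (Qk.evalEnd p (ModularCurve.heckeGen L) f))
    by_cases hL : (L : ℕ) ∣ p
    · have hLp : (L : ℕ) = p := (Nat.prime_dvd_prime_iff_eq L.2 hp).mp hL
      rw [Qk.evalEnd_X_self p L hL, Qk.eisEval_X_self p L hL, mul_one]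
      apply hQ c
      have hU := congDelta_U p c M f hf
      -- transport along `(L : ℕ) = p`
      obtain ⟨ℓ, hℓ⟩ := L
      change ℓ = p at hLp
      subst hLp
      exact hU
    · rw [Qk.evalEnd_X_of_ne p L hL, Qk.eisEval_X_of_ne p L hL]
      have hT := congDelta_T p c M L.2 hL f hf
      have := hQ (c * (1 + ((L : ℕ) : ℤ))) _ hT
      have e : c * (1 + ((L : ℕ) : ℤ)) * eisEval p Q =
          c * (eisEval p Q * (1 + ((L : ℕ) : ℤ))) := by ring
      rw [e] at this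
      exact this

/-- an integral cusp form lies in the lattice -/
lemma mem_intLattice_of_congDelta (c M : ℤ) (f : CuspForm (Gamma0 p) 2)
    (hf : CongDelta p c M f) : f ∈ CuspForm.intLattice p 2 := by
  apply Submodule.subset_span
  intro n
  rcases Nat.eq_zero_or_pos n with rfl | hn
  · exact ⟨0, by rw [Fermat.Agent.S49.qCoeff_zero_index f]; simp⟩
  · obtain ⟨x, hx⟩ := hf n hn
    exact ⟨_, hx⟩

/-- If `Q` acts as `0` on the lattice then `Q(T) f = 0` for `f` in the lattice. -/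
lemma evalEnd_eq_zero_of_heckePhi (Q : ModularCurve.HeckeAlg) (hQ : heckePhi p Q = 0)
    (f : CuspForm (Gamma0 p) 2) (hf : f ∈ CuspForm.intLattice p 2) :
    Qk.evalEnd p Q f = 0 := by
  have h1 : ((heckePhi p Q : ↥(CuspForm.heckeLatticeAlgebra p ∅)) :
      Module.End ℤ ↥(CuspForm.intLattice p 2)) = 0 := by
    rw [hQ]
    rfl
  have h2 := congrArg (fun t : Module.End ℤ ↥(CuspForm.intLattice p 2) =>
    ((t ⟨f, hf⟩ : ↥(CuspForm.intLattice p 2)) : CuspForm (Gamma0 p) 2)) h1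
  exact h2

end

end LBForm

/-- **G-LBF.** -/
theorem ifaceLBForm (p : ℕ) [Fact p.Prime] : IfaceLBForm p := by
  have hp : p.Prime := Fact.out
  rintro ⟨f, hf⟩ Q hQ
  have hmem := LBForm.mem_intLattice_of_congDelta p _ _ f hf
  have h0 := LBForm.evalEnd_eq_zero_of_heckePhi p Q hQ f hmem
  have hc := LBForm.congDelta_evalEnd p (2 * ((p : ℤ) - 1)) Q 24 f hf
  rw [h0] at hc
  obtain ⟨y, hy⟩ := hc 1 le_rfl
  have hzero : PowerSeries.coeff 1 (qExpansion 1 ⇑(0 : CuspForm (Gamma0 p) 2)) = 0 :=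
    map_zero (Qk.a1 p)
  rw [hzero, SigmaP.sigmaP_one p hp] at hy
  have hint : (24 * eisEval p Q * ((1 : ℕ) : ℤ) + 2 * ((p : ℤ) - 1) * y : ℤ) = 0 := by
    have : ((24 * eisEval p Q * ((1 : ℕ) : ℤ) + 2 * ((p : ℤ) - 1) * y : ℤ) : ℂ) = ((0 : ℤ) : ℂ) := by
      rw [← hy]; simp
    exact_mod_cast this
  -- (p - 1) ∣ 12 * eis(Q)
  have hdiv : ((p : ℤ) - 1) ∣ 12 * eisEval p Q := by
    refine ⟨-y, ?_⟩
    push_cast at hint
    linarith
  -- n ∣ eis(Q)
  unfold ModularCurve.eisensteinNumerator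
  set g := Nat.gcd (p - 1) 12 with hg
  have hgpos : 0 < g := Nat.gcd_pos_of_pos_right _ (by norm_num)
  have hg1 : g ∣ p - 1 := Nat.gcd_dvd_left _ _
  have hg2 : g ∣ 12 := Nat.gcd_dvd_right _ _
  obtain ⟨n, hn⟩ := hg1
  obtain ⟨d, hd⟩ := hg2
  have hnd : Nat.Coprime n d := by
    have := Nat.coprime_div_gcd_div_gcd (m := p - 1) (n := 12) hgpos
    rw [← hg] at this
    have e1 : (p - 1) / g = n := by rw [hn]; exact Nat.mul_div_cancel_left n hgpos
    have e2 : 12 / g = d := by rw [hd]; exact Nat.mul_div_cancel_left d hgpos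
    rwa [e1, e2] at this
  have e1 : (p - 1) / g = n := by rw [hn]; exact Nat.mul_div_cancel_left n hgpos
  rw [e1]
  have hp1 : ((p : ℤ) - 1) = (g : ℤ) * n := by
    have : 1 ≤ p := hp.one_lt.le
    have h' : ((p - 1 : ℕ) : ℤ) = (g : ℤ) * n := by exact_mod_cast hn
    rw [← h']
    push_cast [Nat.cast_sub this]
    ring
  have h12 : (12 : ℤ) = (g : ℤ) * d := by exact_mod_cast hd
  rw [hp1, h12, mul_assoc] at hdiv
  have hgz : (g : ℤ) ≠ 0 := by exact_mod_cast hgpos.ne'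
  have hdiv2 : (n : ℤ) ∣ (d : ℤ) * eisEval p Q := (mul_dvd_mul_iff_left hgz).mp hdiv
  have hcop : IsCoprime (n : ℤ) (d : ℤ) := by
    rw [Int.isCoprime_iff_gcd_eq_one, Int.gcd_natCast_natCast]
    exact hnd
  exact hcop.dvd_of_dvd_mul_left hdiv2

end Fermat.Agent.S16
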