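import Fermat.Agent.S16.Glue.Dual

/-!
# P-EIS GLUE, part 5: the frozen cardinality from two `q`-expansion statements

`glue_main`: for an Eisenstein-type sequence `s` (`GlueSeq N s`) and `n ≠ 0`,
* (LB) some cusp form with integral `q`-expansion is `≡ s (mod n)`, and
* (UB) whenever a cusp form with integral `q`-expansion is `≡ s (mod M)`, `M ∣ n`,
imply `Nat.card (T ⧸ I) = n`.
-/

set_option autoImplicit false

open ModularCurve CuspForm ModularFormClass CongruenceSubgroup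

namespace Fermat.Agent.S16.Glue

noncomputable section

variable (N : ℕ) [NeZero N]

/-- lattice-level version of the main glue. -/
theorem glue_main_lattice {s : ℕ → ℤ} (hs : GlueSeq N s) (n : ℕ) (hn : n ≠ 0)
    (hA : ∃ f : ↥(intLattice N 2), ∀ k : ℕ, 1 ≤ k → (n : ℤ) ∣ glueCoeff N k f - s k)
    (hB : ∀ M : ℕ, M ≠ 0 → ∀ f : ↥(intLattice N 2),
      (∀ k : ℕ, 1 ≤ k → (M : ℤ) ∣ glueCoeff N k f - s k) → M ∣ n) :
    Nat.card (↥(heckeLatticeAlgebra N ∅) ⧸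
        Ideal.map ((latticeRestrictHom N ∅).toRingHom.comp (heckeEvalForms N 2))
          (eisensteinIdeal N)) = n := by
  obtain ⟨f, hf⟩ := hA
  exact glue_card_eq N n (fun P hP => glue_lower N hs n f hf P hP) (glue_upper N hs n hn hB)

/-- A cusp form is *congruent to `s` modulo `M`* if `a_k(f) = s k + M c_k` with `c_k ∈ ℤ`
for all `k ≥ 1`. -/
def GlueCongr (s : ℕ → ℤ) (M : ℕ) (f : CuspForm (Gamma0 N) 2) : Prop :=
  ∀ k : ℕ, 1 ≤ k → ∃ c : ℤ, qCoeff ⇑f k = (s k : ℂ) + (M : ℂ) * (c : ℂ)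

omit [NeZero N] in
theorem GlueCongr.mem_intLattice {s : ℕ → ℤ} {M : ℕ} {f : CuspForm (Gamma0 N) 2}
    (h : GlueCongr N s M f) : f ∈ intLattice N 2 := by
  rw [Fermat.Agent.S49.mem_intLattice_iff]
  intro k
  rcases Nat.eq_zero_or_pos k with rfl | hk
  · exact ⟨0, by rw [Fermat.Agent.S49.qCoeff_zero_index, Int.cast_zero]⟩
  · obtain ⟨c, hc⟩ := h k hk
    exact ⟨s k + M * c, by rw [hc]; push_cast; ring⟩

omit [NeZero N] in
theorem GlueCongr.dvd {s : ℕ → ℤ} {M : ℕ} {f : CuspForm (Gamma0 N) 2}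
    (h : GlueCongr N s M f) (k : ℕ) (hk : 1 ≤ k) :
    (M : ℤ) ∣ glueCoeff N k ⟨f, h.mem_intLattice⟩ - s k := by
  obtain ⟨c, hc⟩ := h k hk
  refine ⟨c, ?_⟩
  have : ((glueCoeff N k ⟨f, h.mem_intLattice⟩ - s k : ℤ) : ℂ) = ((M * c : ℤ) : ℂ) := by
    rw [Int.cast_sub, glueCoeff_spec]
    change qCoeff ⇑f k - _ = _
    rw [hc]
    push_cast
    ring
  exact_mod_cast this

omit [NeZero N] in
theorem glueCongr_of_dvd {s : ℕ → ℤ} {M : ℕ} (f : ↥(intLattice N 2))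
    (h : ∀ k : ℕ, 1 ≤ k → (M : ℤ) ∣ glueCoeff N k f - s k) :
    GlueCongr N s M (f : CuspForm (Gamma0 N) 2) := by
  intro k hk
  obtain ⟨c, hc⟩ := h k hk
  refine ⟨c, ?_⟩
  rw [← glueCoeff_spec]
  have : glueCoeff N k f = s k + M * c := by linarith
  rw [this]
  push_cast
  ring

/-- **GLUE main theorem (cusp-form level).** -/
theorem glue_main {s : ℕ → ℤ} (hs : GlueSeq N s) (n : ℕ) (hn : n ≠ 0)
    (hA : ∃ f : CuspForm (Gamma0 N) 2, GlueCongr N s n f)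
    (hB : ∀ M : ℕ, M ≠ 0 → ∀ f : CuspForm (Gamma0 N) 2, GlueCongr N s M f → M ∣ n) :
    Nat.card (↥(heckeLatticeAlgebra N ∅) ⧸
        Ideal.map ((latticeRestrictHom N ∅).toRingHom.comp (heckeEvalForms N 2))
          (eisensteinIdeal N)) = n := by
  refine glue_main_lattice N hs n hn ?_ ?_
  · obtain ⟨f, hf⟩ := hA
    exact ⟨⟨f, hf.mem_intLattice⟩, hf.dvd⟩
  · intro M hM f hf
    exact hB M hM f (glueCongr_of_dvd N f hf)

end

end Fermat.Agent.S16.Glue
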