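import Fermat.Agent.S16.Defs

/-!
# P-EIS (S16), G-QK: arithmetic of `σ'(k) = ∑_{d ∣ k, p ∤ d} d`

`δ = ∑ σ'(k) q^k` is a formal eigenvector: `σ'(p m) = σ'(m)` and, for primes `ℓ ≠ p`,
`σ'(m ℓ) + ℓ σ'(m / ℓ) [ℓ ∣ m] = (1 + ℓ) σ'(m)`.
-/

set_option autoImplicit false

namespace Fermat.Agent.S16

namespace SigmaP

lemma sigmaP_one (p : ℕ) (hp : p.Prime) : sigmaP p 1 = 1 := by
  unfold sigmaP
  rw [Nat.divisors_one, Finset.filter_singleton, if_pos (Nat.Prime.not_dvd_one hp),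
    Finset.sum_singleton]

/-- `σ'(m p) = σ'(m)`. -/
lemma sigmaP_mul_self (p : ℕ) (hp : p.Prime) (m : ℕ) : sigmaP p (m * p) = sigmaP p m := by
  rcases Nat.eq_zero_or_pos m with rfl | hm
  · simp
  unfold sigmaP
  congr 1
  ext d
  simp only [Finset.mem_filter, Nat.mem_divisors]
  constructor
  · rintro ⟨⟨hd, -⟩, hpd⟩
    refine ⟨⟨?_, hm.ne'⟩, hpd⟩
    have hcop : Nat.Coprime d p := (Nat.Coprime.symm ((Nat.Prime.coprime_iff_not_dvd hp).mpr hpd))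
    exact hcop.dvd_of_dvd_mul_right hd
  · rintro ⟨⟨hd, -⟩, hpd⟩
    exact ⟨⟨Dvd.dvd.mul_right hd p, Nat.mul_ne_zero hm.ne' hp.ne_zero⟩, hpd⟩

/-- the part of `σ'(m)` coming from divisors `d` with `ℓ d ∣ m` -/
lemma sum_filter_mul_dvd (p ℓ : ℕ) (hℓ : ℓ.Prime) (m : ℕ) (hm : 0 < m) :
    ∑ d ∈ (m.divisors.filter (fun d => ¬ p ∣ d)).filter (fun d => ℓ * d ∣ m), d =
      if ℓ ∣ m then sigmaP p (m / ℓ) else 0 := by
  split_ifs with h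
  · unfold sigmaP
    congr 1
    ext d
    simp only [Finset.mem_filter, Nat.mem_divisors]
    obtain ⟨t, rfl⟩ := h
    have ht : 0 < t := by
      rcases Nat.eq_zero_or_pos t with h0 | h0
      · rw [h0] at hm; simp at hm
      · exact h0
    rw [Nat.mul_div_cancel_left _ hℓ.pos]
    constructor
    · rintro ⟨⟨⟨-, -⟩, hpd⟩, hld⟩
      exact ⟨⟨(Nat.mul_dvd_mul_iff_left hℓ.pos).mp hld, ht.ne'⟩, hpd⟩
    · rintro ⟨⟨hd, -⟩, hpd⟩
      exact ⟨⟨⟨Dvd.dvd.mul_left hd ℓ, hm.ne'⟩, hpd⟩, Nat.mul_dvd_mul_left ℓ hd⟩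
  · apply Finset.sum_eq_zero
    intro d hd
    simp only [Finset.mem_filter, Nat.mem_divisors] at hd
    exact absurd (Dvd.dvd.trans (Dvd.intro _ rfl) hd.2) h

/-- `σ'(m ℓ) = σ'(m) + ℓ ∑_{d ∣ m, p ∤ d, ℓ d ∤ m} d`. -/
lemma sigmaP_mul_prime_aux (p ℓ : ℕ) (hp : p.Prime) (hℓ : ℓ.Prime) (hne : ℓ ≠ p) (m : ℕ)
    (hm : 0 < m) :
    sigmaP p (m * ℓ) = sigmaP p m +
      ℓ * ∑ d ∈ (m.divisors.filter (fun d => ¬ p ∣ d)).filter (fun d => ¬ ℓ * d ∣ m), d := by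
  have hmℓ : m * ℓ ≠ 0 := Nat.mul_ne_zero hm.ne' hℓ.ne_zero
  have hsplit : sigmaP p (m * ℓ) =
      ∑ d ∈ ((m * ℓ).divisors.filter (fun d => ¬ p ∣ d)).filter (fun d => d ∣ m), d +
      ∑ d ∈ ((m * ℓ).divisors.filter (fun d => ¬ p ∣ d)).filter (fun d => ¬ d ∣ m), d := by
    unfold sigmaP
    rw [Finset.sum_filter_add_sum_filter_not]
  rw [hsplit]
  congr 1
  · unfold sigmaP
    congr 1
    ext d
    simp only [Finset.mem_filter, Nat.mem_divisors]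
    constructor
    · rintro ⟨⟨-, hpd⟩, hd⟩
      exact ⟨⟨hd, hm.ne'⟩, hpd⟩
    · rintro ⟨⟨hd, -⟩, hpd⟩
      exact ⟨⟨⟨Dvd.dvd.mul_right hd ℓ, hmℓ⟩, hpd⟩, hd⟩
  · rw [Finset.mul_sum]
    symm
    refine Finset.sum_nbij' (fun d => ℓ * d) (fun d => d / ℓ) ?_ ?_ ?_ ?_ ?_
    · intro d hd
      simp only [Finset.mem_filter, Nat.mem_divisors] at hd ⊢
      obtain ⟨⟨⟨hdm, -⟩, hpd⟩, hnd⟩ := hd
      refine ⟨⟨⟨?_, hmℓ⟩, ?_⟩, hnd⟩
      · rw [Nat.mul_comm m ℓ]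
        exact Nat.mul_dvd_mul_left ℓ hdm
      · intro hpld
        rcases (Nat.Prime.dvd_mul hp).mp hpld with h | h
        · exact hne ((Nat.prime_dvd_prime_iff_eq hp hℓ).mp h).symm
        · exact hpd h
    · intro d hd
      simp only [Finset.mem_filter, Nat.mem_divisors] at hd ⊢
      obtain ⟨⟨⟨hdm, -⟩, hpd⟩, hnd⟩ := hd
      -- ℓ ∣ d, since otherwise d ∣ m
      have hℓd : ℓ ∣ d := by
        by_contra hcon
        have hcop : Nat.Coprime d ℓ :=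
          Nat.Coprime.symm ((Nat.Prime.coprime_iff_not_dvd hℓ).mpr hcon)
        exact hnd (hcop.dvd_of_dvd_mul_right hdm)
      obtain ⟨e, rfl⟩ := hℓd
      rw [Nat.mul_div_cancel_left _ hℓ.pos]
      refine ⟨⟨⟨?_, hm.ne'⟩, ?_⟩, hnd⟩
      · rw [Nat.mul_comm m ℓ] at hdm
        exact (Nat.mul_dvd_mul_iff_left hℓ.pos).mp hdm
      · intro hpe
        exact hpd (Dvd.dvd.mul_left hpe ℓ)
    · intro d _
      exact Nat.mul_div_cancel_left _ hℓ.pos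
    · intro d hd
      simp only [Finset.mem_filter, Nat.mem_divisors] at hd
      obtain ⟨⟨⟨hdm, -⟩, hpd⟩, hnd⟩ := hd
      have hℓd : ℓ ∣ d := by
        by_contra hcon
        have hcop : Nat.Coprime d ℓ :=
          Nat.Coprime.symm ((Nat.Prime.coprime_iff_not_dvd hℓ).mpr hcon)
        exact hnd (hcop.dvd_of_dvd_mul_right hdm)
      exact Nat.mul_div_cancel' hℓd
    · intro d _
      rfl

/-- **Hecke relation for `σ'`**: for primes `ℓ ≠ p` and `m ≥ 1`,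
`σ'(m ℓ) + ℓ σ'(m / ℓ) [ℓ ∣ m] = (1 + ℓ) σ'(m)`. -/
lemma sigmaP_mul_prime (p ℓ : ℕ) (hp : p.Prime) (hℓ : ℓ.Prime) (hne : ℓ ≠ p) (m : ℕ)
    (hm : 0 < m) :
    sigmaP p (m * ℓ) + (if ℓ ∣ m then ℓ * sigmaP p (m / ℓ) else 0) = (1 + ℓ) * sigmaP p m := by
  rw [sigmaP_mul_prime_aux p ℓ hp hℓ hne m hm]
  have h1 : sigmaP p m =
      ∑ d ∈ (m.divisors.filter (fun d => ¬ p ∣ d)).filter (fun d => ℓ * d ∣ m), d +
      ∑ d ∈ (m.divisors.filter (fun d => ¬ p ∣ d)).filter (fun d => ¬ ℓ * d ∣ m), d := by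
    unfold sigmaP
    rw [Finset.sum_filter_add_sum_filter_not]
  have h2 := sum_filter_mul_dvd p ℓ hℓ m hm
  set A := ∑ d ∈ (m.divisors.filter (fun d => ¬ p ∣ d)).filter (fun d => ℓ * d ∣ m), d
  set B := ∑ d ∈ (m.divisors.filter (fun d => ¬ p ∣ d)).filter (fun d => ¬ ℓ * d ∣ m), d
  have h3 : (if ℓ ∣ m then ℓ * sigmaP p (m / ℓ) else 0) = ℓ * A := by
    rw [h2]
    split_ifs <;> simp
  rw [h3, h1]
  ring

end SigmaP

end Fermat.Agent.S16
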