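import Fermat.Agent.S16.Iface
import Fermat.Prelude.Thm_ModularForm_sturm_bound_Gamma0
import Fermat.Prelude.Thm_CongruenceSubgroup_one_mem_strictPeriods_Gamma0

/-!
# P-EIS (S16), G-SMALL: `p = 2, 3`

`S₂(Γ₀(p)) = 0` for `p = 2, 3` by the Prelude Sturm bound (the index of `Γ₀(p)` is at most `4`),
hence there is no cusp form congruent to `δ`.
-/

set_option autoImplicit false

open UpperHalfPlane ModularForm ModularFormClass MatrixGroups CongruenceSubgroup

namespace Fermat.Agent.S16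

/-- a subgroup with `n` coset representatives has index at most `n`. -/
theorem h17_index_le_of_reps {G : Type*} [Group G] (H : Subgroup G) (n : ℕ) (r : Fin n → G)
    (hr : ∀ g : G, ∃ i, (r i)⁻¹ * g ∈ H) : H.index ≤ n := by
  have hsurj : Function.Surjective (fun i : Fin n => ((r i : G) : G ⧸ H)) := by
    intro x
    induction x using QuotientGroup.induction_on with
    | H g =>
      obtain ⟨i, hi⟩ := hr g
      exact ⟨i, QuotientGroup.eq.mpr hi⟩
  have := Nat.card_le_card_of_surjective _ hsurj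
  rwa [Nat.card_fin] at this

/-- the lower-left entry of `r⁻¹ * g`. -/
theorem h17_inv_mul_one_zero (r g : SL(2, ℤ)) :
    ((r⁻¹ * g : SL(2, ℤ)) : Matrix (Fin 2) (Fin 2) ℤ) 1 0 = r 0 0 * g 1 0 - r 1 0 * g 0 0 := by
  rw [Matrix.SpecialLinearGroup.coe_mul, Matrix.SpecialLinearGroup.SL2_inv_expl,
    Matrix.mul_apply, Fin.sum_univ_two]
  simp
  ring

/-- the first column of an element of `SL₂(ℤ)` is nonzero modulo `p`. -/
theorem h17_first_col_ne_zero (p : ℕ) [Fact (1 < p)] (g : SL(2, ℤ)) :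
    ¬ (((g 0 0 : ℤ) : ZMod p) = 0 ∧ ((g 1 0 : ℤ) : ZMod p) = 0) := by
  rintro ⟨h1, h2⟩
  have hg : ((g 0 0 : ℤ) : ZMod p) * (g 1 1 : ℤ) - (g 0 1 : ℤ) * (g 1 0 : ℤ) = 1 := by
    have := g.det_coe
    rw [Matrix.det_fin_two] at this
    exact_mod_cast congrArg (Int.cast : ℤ → ZMod p) this
  rw [h1, h2] at hg
  simp at hg

def h17_repS : SL(2, ℤ) := ⟨!![0, -1; 1, 0], by simp [Matrix.det_fin_two]⟩
def h17_repP : SL(2, ℤ) := ⟨!![1, 0; 1, 1], by simp [Matrix.det_fin_two]⟩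
def h17_repM : SL(2, ℤ) := ⟨!![1, 0; -1, 1], by simp [Matrix.det_fin_two]⟩

theorem h17_zmod2_cases : ∀ a c : ZMod 2, ¬ (a = 0 ∧ c = 0) → c = 0 ∨ a = 0 ∨ c - a = 0 := by
  decide

theorem h17_zmod3_cases : ∀ a c : ZMod 3, ¬ (a = 0 ∧ c = 0) →
    c = 0 ∨ a = 0 ∨ c - a = 0 ∨ c + a = 0 := by
  decide

theorem h17_index_Gamma0_two_le : (Gamma0 2).index ≤ 4 := by
  have : Fact (1 < 2) := ⟨by norm_num⟩
  refine h17_index_le_of_reps _ 4 ![1, h17_repS, h17_repP, h17_repP] ?_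
  intro g
  rcases h17_zmod2_cases _ _ (h17_first_col_ne_zero 2 g) with h | h | h
  · refine ⟨0, ?_⟩
    rw [Gamma0_mem, h17_inv_mul_one_zero]
    push_cast
    simp [h]
  · refine ⟨1, ?_⟩
    rw [Gamma0_mem, h17_inv_mul_one_zero]
    push_cast
    simp [h17_repS, h]
  · refine ⟨2, ?_⟩
    rw [Gamma0_mem, h17_inv_mul_one_zero]
    push_cast
    simp [h17_repP]
    exact h

theorem h17_index_Gamma0_three_le : (Gamma0 3).index ≤ 4 := by
  have : Fact (1 < 3) := ⟨by norm_num⟩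
  refine h17_index_le_of_reps _ 4 ![1, h17_repS, h17_repP, h17_repM] ?_
  intro g
  rcases h17_zmod3_cases _ _ (h17_first_col_ne_zero 3 g) with h | h | h | h
  · refine ⟨0, ?_⟩
    rw [Gamma0_mem, h17_inv_mul_one_zero]
    push_cast
    simp [h]
  · refine ⟨1, ?_⟩
    rw [Gamma0_mem, h17_inv_mul_one_zero]
    push_cast
    simp [h17_repS, h]
  · refine ⟨2, ?_⟩
    rw [Gamma0_mem, h17_inv_mul_one_zero]
    push_cast
    simp [h17_repP]
    exact h
  · refine ⟨3, ?_⟩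
    rw [Gamma0_mem, h17_inv_mul_one_zero]
    push_cast
    simp [h17_repM]
    exact h

/-- Sturm: if the index of `Γ₀(N)` is at most `5`, then `S₂(Γ₀(N)) = 0`. -/
theorem h17_cuspForm_eq_zero_of_index_le (N : ℕ) [NeZero N] (hidx : (Gamma0 N).index ≤ 5)
    (f : CuspForm (Gamma0 N) 2) : f = 0 := by
  apply CuspForm.toModularFormₗ_injective
  rw [_root_.map_zero]
  apply ModularForm.sturm_bound_Gamma0 N
  intro n hn
  have hn0 : n = 0 := by
    have h1 : ((2 : ℤ) * ((Gamma0 N).index : ℤ)).toNat ≤ 10 := by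
      omega
    have h2 : ((2 : ℤ) * ((Gamma0 N).index : ℤ)).toNat / 12 = 0 := by
      omega
    omega
  subst hn0
  exact CuspFormClass.qExpansion_coeff_zero f one_pos
    (CongruenceSubgroup.one_mem_strictPeriods_Gamma0 N)

theorem h17_sigmaP_one (p : ℕ) (hp : 1 < p) : sigmaP p 1 = 1 := by
  unfold sigmaP
  rw [Nat.divisors_one, Finset.filter_singleton, if_pos]
  · simp
  · intro h
    have := Nat.le_of_dvd one_pos h
    omega

/-- no cusp form congruent to `δ` modulo `M ≠ ± 1` if `S₂(Γ₀(p)) = 0`. -/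
theorem h17_noCong_of_zero (p : ℕ) (hp : 1 < p) (M : ℤ) (hM : ¬ M ∣ 1)
    (h0 : ∀ f : CuspForm (Gamma0 p) 2, f = 0) :
    ¬ ∃ f : CuspForm (Gamma0 p) 2, CongDelta p 1 M f := by
  rintro ⟨f, hf⟩
  obtain ⟨x, hx⟩ := hf 1 le_rfl
  rw [h0 f] at hx
  have hz : qExpansion 1 (⇑(0 : CuspForm (Gamma0 p) 2)) = 0 := by
    rw [FunLike.coe_zero]
    exact qExpansion_zero 1
  rw [hz, _root_.map_zero, h17_sigmaP_one p hp] at hx
  have hx' : (1 : ℤ) * ((1 : ℕ) : ℤ) + M * x = 0 := by exact_mod_cast hx.symm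
  apply hM
  refine ⟨-x, ?_⟩
  push_cast at hx'
  linear_combination hx'

/-- **G-SMALL.** -/
theorem ifaceSmall : IfaceSmall := by
  intro p ℓ hp hℓ
  have hM : ¬ ((ℓ : ℤ) ^ (padicValNat ℓ (ModularCurve.eisensteinNumerator p) + 1)) ∣ 1 := by
    intro h
    have h1 : (ℓ : ℤ) ∣ 1 := Dvd.dvd.trans (dvd_pow_self _ (Nat.succ_ne_zero _)) h
    have h2 : ℓ ∣ 1 := by exact_mod_cast h1
    exact hℓ.one_lt.ne' (Nat.dvd_one.mp h2)
  rcases hp with rfl | rfl
  · exact h17_noCong_of_zero 2 (by norm_num) _ hM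
      (h17_cuspForm_eq_zero_of_index_le 2 (by have := h17_index_Gamma0_two_le; omega))
  · exact h17_noCong_of_zero 3 (by norm_num) _ hM
      (h17_cuspForm_eq_zero_of_index_le 3 (by have := h17_index_Gamma0_three_le; omega))

end Fermat.Agent.S16
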