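import Fermat.Agent.S16.Iface
import Fermat.Prelude.Thm_CongruenceSubgroup_one_mem_strictPeriods_Gamma0

/-!
# P-EIS (S16), G-UBRED: `NoH p ℓ → NoCongForm p ℓ`

If `f` is a cusp form with `a_k(f) = σ'(k) + ℓ^a x_k` (`a = v_ℓ(n) + 1`), then
`H = (E - 24 f) / (p - 1)` has `a_0(H) = 1` and `a_k(H) = -24 ℓ^a x_k / (p - 1) = ℓ^b m / s`
with `ℓ ∤ s`, `b = expB p ℓ`.
-/

set_option autoImplicit false

open UpperHalfPlane ModularForm ModularFormClass MatrixGroups CongruenceSubgroup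

namespace Fermat.Agent.S16

/-- `k = ℓ ^ v_ℓ(k) * k'` with `ℓ ∤ k'`. -/
theorem h17_split_padic (ℓ : ℕ) [Fact ℓ.Prime] (k : ℕ) (hk : k ≠ 0) :
    ∃ k' : ℕ, ¬ ℓ ∣ k' ∧ k = ℓ ^ padicValNat ℓ k * k' := by
  obtain ⟨k', hk'⟩ := (pow_padicValNat_dvd : ℓ ^ padicValNat ℓ k ∣ k)
  refine ⟨k', ?_, hk'⟩
  rintro ⟨t, rfl⟩
  apply pow_succ_padicValNat_not_dvd (p := ℓ) hk
  exact ⟨t, by rw [pow_succ]; nlinarith [hk']⟩

/-- the arithmetic of `b = expB p ℓ`. -/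
theorem h17_arith (p ℓ : ℕ) (hp : 1 < p) [Fact ℓ.Prime] (x : ℤ) :
    ∃ (m : ℤ) (s : ℕ), ¬ ℓ ∣ s ∧
      (-(24 : ℂ) * ((ℓ : ℂ) ^ (padicValNat ℓ (ModularCurve.eisensteinNumerator p) + 1) * (x : ℂ)))
          / ((p : ℂ) - 1)
        = (ℓ : ℂ) ^ expB p ℓ * (m : ℂ) / (s : ℂ) := by
  have hℓ : ℓ.Prime := Fact.out
  set ν := Nat.gcd (p - 1) 12 with hν
  have hν0 : ν ≠ 0 := by
    rw [hν]
    exact Nat.gcd_ne_zero_right (by norm_num)
  have hνp : ν ∣ p - 1 := Nat.gcd_dvd_left _ _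
  have hν24 : ν ∣ 24 := Dvd.dvd.trans (Nat.gcd_dvd_right _ _) (by norm_num)
  set n := ModularCurve.eisensteinNumerator p with hn
  have hn1 : n * ν = p - 1 := Nat.div_mul_cancel hνp
  have hn0 : n ≠ 0 := by
    intro h
    rw [h, zero_mul] at hn1
    omega
  set c := 24 / ν with hc
  have hc1 : c * ν = 24 := Nat.div_mul_cancel hν24
  have hc0 : c ≠ 0 := by
    intro h
    rw [h, zero_mul] at hc1
    omega
  obtain ⟨n', hn', hnn'⟩ := h17_split_padic ℓ n hn0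
  obtain ⟨c', hc', hcc'⟩ := h17_split_padic ℓ c hc0
  refine ⟨-(c' : ℤ) * x, n', hn', ?_⟩
  have hn'0 : (n' : ℂ) ≠ 0 := by
    have : n' ≠ 0 := by
      rintro rfl
      exact hn' (dvd_zero _)
    exact_mod_cast this
  have hℓ0 : (ℓ : ℂ) ≠ 0 := by exact_mod_cast hℓ.ne_zero
  have hνC : (ν : ℂ) ≠ 0 := by exact_mod_cast hν0
  have hpC : (p : ℂ) - 1 = (n : ℂ) * (ν : ℂ) := by
    have : ((p - 1 : ℕ) : ℂ) = (p : ℂ) - 1 := by
      rw [Nat.cast_sub hp.le]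
      simp
    rw [← this, ← hn1]
    push_cast
    ring
  have h24 : (24 : ℂ) = (c : ℂ) * (ν : ℂ) := by
    have := congrArg (Nat.cast : ℕ → ℂ) hc1
    push_cast at this
    exact this.symm
  have hnC : (n : ℂ) = (ℓ : ℂ) ^ padicValNat ℓ n * (n' : ℂ) := by
    exact_mod_cast congrArg (Nat.cast : ℕ → ℂ) hnn'
  have hcC : (c : ℂ) = (ℓ : ℂ) ^ padicValNat ℓ c * (c' : ℂ) := by
    exact_mod_cast congrArg (Nat.cast : ℕ → ℂ) hcc'
  have hb : expB p ℓ = 1 + padicValNat ℓ c := rfl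
  rw [hb, hpC, h24, hnC, hcC]
  generalize padicValNat ℓ n = v
  generalize padicValNat ℓ c = w
  push_cast
  field_simp
  ring

/-- **G-UBRED.** -/
theorem ifaceUBRed (p ℓ : ℕ) [Fact p.Prime] [Fact ℓ.Prime] : IfaceUBRed p ℓ := by
  rintro ⟨E, hE0, hEk⟩ hNoH ⟨f, hf⟩
  apply hNoH
  have hp : p.Prime := Fact.out
  have hp1 : (p : ℂ) - 1 ≠ 0 := by
    have : (p : ℂ) ≠ 1 := by exact_mod_cast hp.one_lt.ne'
    exact sub_ne_zero.mpr this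
  have hΓ := CongruenceSubgroup.one_mem_strictPeriods_Gamma0 p
  obtain ⟨H, hH⟩ : ∃ H : ModularForm (Gamma0 p) 2, (⇑H : ℍ → ℂ)
      = ((p : ℂ) - 1)⁻¹ • (⇑E - (24 : ℂ) • ⇑(CuspForm.toModularFormₗ f)) :=
    ⟨((p : ℂ) - 1)⁻¹ • (E - (24 : ℂ) • (CuspForm.toModularFormₗ f)), rfl⟩
  have hq : qExpansion 1 (⇑H)
      = ((p : ℂ) - 1)⁻¹ • (qExpansion 1 E - (24 : ℂ) • qExpansion 1 f) := by
    have h1 := ModularForm.qExpansion_smul one_pos hΓ (((p : ℂ) - 1)⁻¹)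
      (E - (24 : ℂ) • (CuspForm.toModularFormₗ f))
    have h2 := ModularForm.qExpansion_sub one_pos hΓ E ((24 : ℂ) • (CuspForm.toModularFormₗ f))
    have h3 := ModularForm.qExpansion_smul one_pos hΓ (24 : ℂ) (CuspForm.toModularFormₗ f)
    have c1 : (⇑(E - (24 : ℂ) • CuspForm.toModularFormₗ f) : ℍ → ℂ)
        = ⇑E - (24 : ℂ) • ⇑(CuspForm.toModularFormₗ f) := rfl
    have c2 : (⇑((24 : ℂ) • CuspForm.toModularFormₗ f) : ℍ → ℂ)
        = (24 : ℂ) • ⇑(CuspForm.toModularFormₗ f) := rfl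
    have c3 : (⇑(CuspForm.toModularFormₗ f) : ℍ → ℂ) = ⇑f := rfl
    rw [c1] at h1
    rw [c2] at h2
    rw [hH, h1, h2, h3, c3]
  have hf0 : PowerSeries.coeff 0 (qExpansion 1 f) = 0 :=
    CuspFormClass.qExpansion_coeff_zero f one_pos hΓ
  refine ⟨H, ?_, ?_⟩
  · rw [hq]
    simp only [map_smul, map_sub, hE0, hf0, smul_eq_mul, mul_zero, sub_zero]
    exact inv_mul_cancel₀ hp1
  · intro k hk
    obtain ⟨x, hx⟩ := hf k hk
    obtain ⟨m, s, hs, hms⟩ := h17_arith p ℓ hp.one_lt x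
    refine ⟨m, s, hs, ?_⟩
    rw [hq, ← hms]
    simp only [map_smul, map_sub, hEk k hk, hx, smul_eq_mul]
    push_cast
    field_simp
    ring

end Fermat.Agent.S16
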