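import Fermat.Agent.S16.Glue.Cyclic
import Fermat.Agent.S49.QCoeff

/-!
# P-EIS GLUE, part 2: integral `q`-coefficients on the lattice and the action of the generators
-/

set_option autoImplicit false

open ModularCurve CuspForm ModularFormClass CongruenceSubgroup

namespace Fermat.Agent.S16.Glue

noncomputable section

variable (N : ℕ)

/-- the `k`-th `q`-coefficient of an element of the integral lattice, as an integer. -/
def glueCoeffFun (k : ℕ) (f : ↥(intLattice N 2)) : ℤ :=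
  Classical.choose ((Fermat.Agent.S49.mem_intLattice_iff f.1).1 f.2 k)

theorem glueCoeffFun_spec (k : ℕ) (f : ↥(intLattice N 2)) :
    ((glueCoeffFun N k f : ℤ) : ℂ) = qCoeff ⇑(f : CuspForm (Gamma0 N) 2) k :=
  (Classical.choose_spec ((Fermat.Agent.S49.mem_intLattice_iff f.1).1 f.2 k)).symm

/-- the `k`-th `q`-coefficient as a `ℤ`-linear functional on the lattice. -/
def glueCoeff (k : ℕ) : ↥(intLattice N 2) →ₗ[ℤ] ℤ where
  toFun := glueCoeffFun N k
  map_add' f g := by
    have : ((glueCoeffFun N k (f + g) : ℤ) : ℂ) =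
        ((glueCoeffFun N k f + glueCoeffFun N k g : ℤ) : ℂ) := by
      rw [Int.cast_add, glueCoeffFun_spec, glueCoeffFun_spec, glueCoeffFun_spec]
      exact Fermat.Agent.S49.qCoeff_add_cusp _ _ k
    exact_mod_cast this
  map_smul' c f := by
    have : ((glueCoeffFun N k (c • f) : ℤ) : ℂ) =
        ((c * glueCoeffFun N k f : ℤ) : ℂ) := by
      rw [Int.cast_mul, glueCoeffFun_spec, glueCoeffFun_spec]
      have h : ((c • f : ↥(intLattice N 2)) : CuspForm (Gamma0 N) 2) =
          (c : ℂ) • (f : CuspForm (Gamma0 N) 2) := by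
        rw [Submodule.coe_smul, Int.cast_smul_eq_zsmul]
      rw [h]
      exact Fermat.Agent.S49.qCoeff_smul_cusp _ _ k
    simpa using (by exact_mod_cast this : glueCoeffFun N k (c • f) = c * glueCoeffFun N k f)

theorem glueCoeff_spec (k : ℕ) (f : ↥(intLattice N 2)) :
    ((glueCoeff N k f : ℤ) : ℂ) = qCoeff ⇑(f : CuspForm (Gamma0 N) 2) k :=
  glueCoeffFun_spec N k f

theorem glueCoeff_zero_index (f : ↥(intLattice N 2)) : glueCoeff N 0 f = 0 := by
  have := glueCoeff_spec N 0 f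
  rw [Fermat.Agent.S49.qCoeff_zero_index] at this
  exact_mod_cast this

theorem glue_eq_zero_of_coeff [NeZero N] (f : ↥(intLattice N 2))
    (h : ∀ k : ℕ, 1 ≤ k → glueCoeff N k f = 0) : f = 0 := by
  apply Subtype.ext
  apply Fermat.Agent.S49.eq_zero_of_forall_qCoeff
  intro k
  rcases Nat.eq_zero_or_pos k with rfl | hk
  · exact Fermat.Agent.S49.qCoeff_zero_index _
  · rw [← glueCoeff_spec, h k hk, Int.cast_zero]

/-- divisibility of all coefficients by `M ≠ 0` means divisibility in the lattice. -/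
theorem glue_exists_smul_of_dvd (M : ℤ) (hM : M ≠ 0) (f : ↥(intLattice N 2))
    (h : ∀ k : ℕ, 1 ≤ k → M ∣ glueCoeff N k f) : ∃ g : ↥(intLattice N 2), f = M • g := by
  have hMC : (M : ℂ) ≠ 0 := Int.cast_ne_zero.mpr hM
  have hmem : ((M : ℂ)⁻¹ • (f : CuspForm (Gamma0 N) 2)) ∈ intLattice N 2 := by
    rw [Fermat.Agent.S49.mem_intLattice_iff]
    intro k
    rcases Nat.eq_zero_or_pos k with rfl | hk
    · exact ⟨0, by rw [Fermat.Agent.S49.qCoeff_zero_index, Int.cast_zero]⟩
    · obtain ⟨c, hc⟩ := h k hk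
      refine ⟨c, ?_⟩
      rw [Fermat.Agent.S49.qCoeff_smul_cusp, ← glueCoeff_spec, hc, Int.cast_mul,
        inv_mul_cancel_left₀ hMC]
  refine ⟨⟨_, hmem⟩, Subtype.ext ?_⟩
  have h1 : ((M • (⟨_, hmem⟩ : ↥(intLattice N 2)) : ↥(intLattice N 2)) :
      CuspForm (Gamma0 N) 2) = (M : ℂ) • ((M : ℂ)⁻¹ • (f : CuspForm (Gamma0 N) 2)) := by
    rw [Submodule.coe_smul, Int.cast_smul_eq_zsmul]
  rw [h1, smul_smul, mul_inv_cancel₀ hMC, one_smul]

variable [NeZero N]

/-- action of `X ℓ`, `ℓ ∤ N`, on coefficients. -/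
theorem glueCoeff_pi_X_of_not_dvd (ℓ : Nat.Primes) (h : ¬ (ℓ : ℕ) ∣ N) (f : ↥(intLattice N 2))
    (k : ℕ) :
    glueCoeff N k ((gluePi N (MvPolynomial.X ℓ) : Module.End ℤ ↥(intLattice N 2)) f) =
      glueCoeff N (k * ℓ) f + if (ℓ : ℕ) ∣ k then (ℓ : ℤ) * glueCoeff N (k / ℓ) f else 0 := by
  have hX : ((gluePi N (MvPolynomial.X ℓ) : Module.End ℤ ↥(intLattice N 2)) f :
      CuspForm (Gamma0 N) 2) = CuspForm.heckeTLin 2 ℓ.2 h (f : CuspForm (Gamma0 N) 2) := by
    have : gluePi N (MvPolynomial.X ℓ) =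
        latticeRestrictHom N ∅ (heckeAlgebra.T ℓ.2 h (Set.notMem_empty _)) := by
      change (latticeRestrictHom N ∅) (heckeEvalForms N 2 (heckeGen ℓ)) = _
      rw [heckeEvalForms_heckeGen_of_not_dvd h]
    rw [this]
    rfl
  have : ((glueCoeff N k ((gluePi N (MvPolynomial.X ℓ) : Module.End ℤ ↥(intLattice N 2)) f) : ℤ) : ℂ)
      = ((glueCoeff N (k * ℓ) f +
          if (ℓ : ℕ) ∣ k then (ℓ : ℤ) * glueCoeff N (k / ℓ) f else 0 : ℤ) : ℂ) := by
    rw [glueCoeff_spec, hX, Fermat.Agent.S49.qCoeff_heckeTLin, Int.cast_add, glueCoeff_spec]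
    congr 1
    split_ifs
    · rw [Int.cast_mul, glueCoeff_spec]
      norm_num
    · simp
  exact_mod_cast this

/-- action of `X q`, `q ∣ N`, on coefficients. -/
theorem glueCoeff_pi_X_of_dvd (q : Nat.Primes) (h : (q : ℕ) ∣ N) (f : ↥(intLattice N 2))
    (k : ℕ) :
    glueCoeff N k ((gluePi N (MvPolynomial.X q) : Module.End ℤ ↥(intLattice N 2)) f) =
      glueCoeff N (k * q) f := by
  have hX : ((gluePi N (MvPolynomial.X q) : Module.End ℤ ↥(intLattice N 2)) f :
      CuspForm (Gamma0 N) 2) = CuspForm.heckeULin 2 h (f : CuspForm (Gamma0 N) 2) := by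
    have : gluePi N (MvPolynomial.X q) =
        latticeRestrictHom N ∅ (heckeAlgebra.U q.2 h (Set.notMem_empty _)) := by
      change (latticeRestrictHom N ∅) (heckeEvalForms N 2 (heckeGen q)) = _
      rw [heckeEvalForms_heckeGen_of_dvd h]
    rw [this]
    rfl
  have : ((glueCoeff N k ((gluePi N (MvPolynomial.X q) : Module.End ℤ ↥(intLattice N 2)) f) : ℤ) : ℂ)
      = ((glueCoeff N (k * q) f : ℤ) : ℂ) := by
    rw [glueCoeff_spec, hX, Fermat.Agent.S49.qCoeff_heckeULin q.2, glueCoeff_spec]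
  exact_mod_cast this

theorem gluePi_mul_apply (P Q : HeckeAlg) (f : ↥(intLattice N 2)) :
    (gluePi N (P * Q) : Module.End ℤ ↥(intLattice N 2)) f =
      (gluePi N P : Module.End ℤ ↥(intLattice N 2))
        ((gluePi N Q : Module.End ℤ ↥(intLattice N 2)) f) := by
  rw [map_mul]
  rfl

theorem gluePi_add_apply (P Q : HeckeAlg) (f : ↥(intLattice N 2)) :
    (gluePi N (P + Q) : Module.End ℤ ↥(intLattice N 2)) f =
      (gluePi N P : Module.End ℤ ↥(intLattice N 2)) f +
        (gluePi N Q : Module.End ℤ ↥(intLattice N 2)) f := by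
  rw [map_add]
  rfl

theorem gluePi_C_apply (a : ℤ) (f : ↥(intLattice N 2)) :
    (gluePi N (MvPolynomial.C a) : Module.End ℤ ↥(intLattice N 2)) f = a • f := by
  have : gluePi N (MvPolynomial.C a) = algebraMap ℤ ↥(heckeLatticeAlgebra N ∅) a := by
    change (latticeRestrictHom N ∅) (heckeEvalForms N 2 (MvPolynomial.C a)) = _
    rw [heckeEvalForms_C, AlgHom.commutes]
  rw [this]
  change (algebraMap ℤ (Module.End ℤ ↥(intLattice N 2)) a) f = a • f
  rw [Module.algebraMap_end_apply]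

end

end Fermat.Agent.S16.Glue
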