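import Fermat.Prelude.Def_CuspForm_HeckeLocal
import Fermat.Prelude.Def_CuspForm_HeckeEvalForms
import Fermat.Prelude.Def_HeckeGalois_EichlerShimura
import Fermat.Prelude.Def_ModularCurve_ModularUnit

/-!
# P-EIS GLUE, part 1: the quotient `T ⧸ I` is `ZMod n`

`T = heckeLatticeAlgebra p ∅`, `I = Ideal.map π (eisensteinIdeal p)` with
`π : HeckeAlg →+* T` the evaluation map.  We show that `π` is surjective and that
`Nat.card (T ⧸ I) = n` as soon as
* every `P ∈ ker π` has Eisenstein value divisible by `n`, and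
* some `P ∈ ker π` has Eisenstein value exactly `n`.
-/

set_option autoImplicit false

open ModularCurve CuspForm

namespace Fermat.Agent.S16.Glue

noncomputable section

/-- generic cardinality lemma: a quotient by the kernel of a surjection onto `ZMod n`. -/
theorem glue_card_quot_ker {R : Type*} [CommRing R] (n : ℕ) (ρ : R →+* ZMod n)
    (hρ : Function.Surjective ρ) (I : Ideal R) (hI : I = RingHom.ker ρ) :
    Nat.card (R ⧸ I) = n := by
  subst hI
  rw [Nat.card_congr (RingHom.quotientKerEquivOfSurjective hρ).toEquiv, Nat.card_zmod]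

variable (N : ℕ) [NeZero N]

/-- the evaluation map `HeckeAlg → T` of the frozen statement. -/
def gluePi : HeckeAlg →+* ↥(heckeLatticeAlgebra N ∅) :=
  (latticeRestrictHom N ∅).toRingHom.comp (heckeEvalForms N 2)

/-- the Eisenstein evaluation `HeckeAlg → ℤ`. -/
def glueEis : HeckeAlg →+* ℤ :=
  (MvPolynomial.aeval (R := ℤ) (eisensteinSystem N)).toRingHom

omit [NeZero N] in
theorem glue_eisensteinIdeal_eq : eisensteinIdeal N = RingHom.ker (glueEis N) := rfl

omit [NeZero N] in
theorem glueEis_C (a : ℤ) : glueEis N (MvPolynomial.C a) = a := by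
  simp [glueEis]

omit [NeZero N] in
theorem glueEis_X (ℓ : Nat.Primes) : glueEis N (MvPolynomial.X ℓ) = eisensteinSystem N ℓ := by
  simp [glueEis]

theorem glue_heckeEvalForms_surjective (k : ℤ) :
    Function.Surjective (heckeEvalForms N k) := by
  rintro ⟨x, hx⟩
  suffices h : ∃ P : HeckeAlg, ((heckeEvalForms N k P : heckeAlgebra N k ∅) :
      Module.End ℂ (CuspForm (CongruenceSubgroup.Gamma0 N) k)) = x by
    obtain ⟨P, hP⟩ := h
    exact ⟨P, Subtype.ext hP⟩
  induction hx using Algebra.adjoin_induction with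
  | mem x hx =>
    rcases hx with ⟨ℓ, hℓ, hℓN, -, rfl⟩ | ⟨q, hqN, hq, -, rfl⟩
    · refine ⟨heckeGen ⟨ℓ, hℓ⟩, ?_⟩
      rw [heckeEvalForms_heckeGen_of_not_dvd (N := N) (k := k) (ℓ := ⟨ℓ, hℓ⟩) hℓN]
      rfl
    · refine ⟨heckeGen ⟨q, hq⟩, ?_⟩
      rw [heckeEvalForms_heckeGen_of_dvd (N := N) (k := k) (q := ⟨q, hq⟩) hqN]
      rfl
  | algebraMap r =>
    refine ⟨MvPolynomial.C r, ?_⟩
    rw [heckeEvalForms_C]
    rfl
  | add x y _ _ hx hy =>
    obtain ⟨P, rfl⟩ := hx
    obtain ⟨Q, rfl⟩ := hy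
    exact ⟨P + Q, by rw [map_add]; rfl⟩
  | mul x y _ _ hx hy =>
    obtain ⟨P, rfl⟩ := hx
    obtain ⟨Q, rfl⟩ := hy
    exact ⟨P * Q, by rw [map_mul]; rfl⟩

theorem gluePi_surjective : Function.Surjective (gluePi N) := by
  intro t
  obtain ⟨s, rfl⟩ := latticeRestrictHom_surjective N ∅ t
  obtain ⟨P, rfl⟩ := glue_heckeEvalForms_surjective N 2 s
  exact ⟨P, rfl⟩

set_option maxHeartbeats 1000000 in
set_option synthInstance.maxHeartbeats 400000 in
/-- **Cyclicity / cardinality criterion.** -/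
theorem glue_card_eq (n : ℕ)
    (h1 : ∀ P : HeckeAlg, gluePi N P = 0 → (n : ℤ) ∣ glueEis N P)
    (h2 : ∃ P : HeckeAlg, gluePi N P = 0 ∧ glueEis N P = n) :
    Nat.card (↥(heckeLatticeAlgebra N ∅) ⧸
        Ideal.map ((latticeRestrictHom N ∅).toRingHom.comp (heckeEvalForms N 2))
          (eisensteinIdeal N)) = n := by
  classical
  -- the target ring hom HeckeAlg → ZMod n
  set χ : HeckeAlg →+* ZMod n := (Int.castRingHom (ZMod n)).comp (glueEis N) with hχ
  have hker : RingHom.ker (gluePi N) ≤ RingHom.ker χ := by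
    intro P hP
    rw [RingHom.mem_ker] at hP ⊢
    rw [hχ, RingHom.comp_apply, Int.coe_castRingHom, ZMod.intCast_zmod_eq_zero_iff_dvd]
    exact h1 P hP
  set ρ : ↥(heckeLatticeAlgebra N ∅) →+* ZMod n :=
    RingHom.liftOfSurjective (gluePi N) (gluePi_surjective N) ⟨χ, hker⟩ with hρ
  have hρπ : ∀ P, ρ (gluePi N P) = χ P := fun P =>
    RingHom.liftOfRightInverse_comp_apply _ _ _ ⟨χ, hker⟩ P
  have hρsurj : Function.Surjective ρ := by
    intro z
    obtain ⟨a, rfl⟩ := ZMod.intCast_surjective z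
    refine ⟨gluePi N (MvPolynomial.C a), ?_⟩
    rw [hρπ, hχ, RingHom.comp_apply, glueEis_C, Int.coe_castRingHom]
  have hI : Ideal.map ((latticeRestrictHom N ∅).toRingHom.comp (heckeEvalForms N 2))
      (eisensteinIdeal N) = RingHom.ker ρ := by
    change Ideal.map (gluePi N) (RingHom.ker (glueEis N)) = RingHom.ker ρ
    apply le_antisymm
    · rw [Ideal.map_le_iff_le_comap]
      intro P hP
      rw [RingHom.mem_ker] at hP
      rw [Ideal.mem_comap, RingHom.mem_ker, hρπ, hχ, RingHom.comp_apply, hP, map_zero]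
    · intro t ht
      obtain ⟨P, rfl⟩ := gluePi_surjective N t
      rw [RingHom.mem_ker, hρπ, hχ, RingHom.comp_apply, Int.coe_castRingHom,
        ZMod.intCast_zmod_eq_zero_iff_dvd] at ht
      obtain ⟨c, hc⟩ := ht
      obtain ⟨P₀, hP₀, hP₀n⟩ := h2
      have hmem : P - MvPolynomial.C c * P₀ ∈ RingHom.ker (glueEis N) := by
        rw [RingHom.mem_ker, map_sub, map_mul, glueEis_C, hP₀n, hc]
        ring
      have := Ideal.mem_map_of_mem (gluePi N) hmem
      rwa [map_sub, map_mul, hP₀, mul_zero, sub_zero] at this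
  exact glue_card_quot_ker n ρ hρsurj _ hI

end

end Fermat.Agent.S16.Glue
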