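import Fermat.Agent.S16.Glue.Hecke

/-!
# P-EIS GLUE, part 4: duality between the lattice and its Hecke algebra, upper-bound glue
-/

set_option autoImplicit false

open ModularCurve CuspForm ModularFormClass CongruenceSubgroup

namespace Fermat.Agent.S16.Glue

noncomputable section

/-- generic: an injective map between free `ℤ`-modules of finite rank with
`rank B ≤ rank A` has torsion cokernel. -/
theorem glue_exists_smul_mem_range {A B : Type*} [AddCommGroup A] [AddCommGroup B]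
    [Module.Finite ℤ A] [Module.Free ℤ A] [Module.Finite ℤ B] [Module.Free ℤ B]
    (Ψ : A →ₗ[ℤ] B) (hΨ : Function.Injective Ψ)
    (hrank : Module.finrank ℤ B ≤ Module.finrank ℤ A) (b : B) :
    ∃ c : ℤ, c ≠ 0 ∧ c • b ∈ LinearMap.range Ψ := by
  have h1 : Module.finrank ℤ (LinearMap.range Ψ) = Module.finrank ℤ A :=
    LinearMap.finrank_range_of_inj hΨ
  have h2 := (LinearMap.range Ψ).finrank_quotient_add_finrank
  have h3 : Module.finrank ℤ (B ⧸ LinearMap.range Ψ) = 0 := by omega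
  have h4 : Module.IsTorsion ℤ (B ⧸ LinearMap.range Ψ) :=
    Module.finrank_eq_zero_iff_isTorsion.mp h3
  obtain ⟨⟨c, hc⟩, hcb⟩ := @h4 (Submodule.Quotient.mk b)
  refine ⟨c, nonZeroDivisors.ne_zero hc, ?_⟩
  have : (Submodule.Quotient.mk (c • b) : B ⧸ LinearMap.range Ψ) = 0 := by
    rw [Submodule.Quotient.mk_smul]
    exact hcb
  exact (Submodule.Quotient.mk_eq_zero _).mp this

variable (N : ℕ) [NeZero N]

set_option maxHeartbeats 1000000
set_option synthInstance.maxHeartbeats 400000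

/-- the pairing `(t, f) ↦ a_1(t f)` as a map `T → Hom(L, ℤ)`. -/
def gluePsiT : ↥(heckeLatticeAlgebra N ∅) →ₗ[ℤ] (↥(intLattice N 2) →ₗ[ℤ] ℤ) :=
  (LinearMap.llcomp ℤ ↥(intLattice N 2) ↥(intLattice N 2) ℤ (glueCoeff N 1)) ∘ₗ
    (heckeLatticeAlgebra N ∅).val.toLinearMap

/-- the pairing `(t, f) ↦ a_1(t f)` as a map `L → Hom(T, ℤ)`. -/
def gluePsi : ↥(intLattice N 2) →ₗ[ℤ] (↥(heckeLatticeAlgebra N ∅) →ₗ[ℤ] ℤ) :=
  (gluePsiT N).flip

theorem gluePsiT_apply (f : ↥(intLattice N 2)) (t : ↥(heckeLatticeAlgebra N ∅)) :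
    gluePsiT N t f = glueCoeff N 1 ((t : Module.End ℤ ↥(intLattice N 2)) f) := rfl

theorem gluePsi_apply (f : ↥(intLattice N 2)) (t : ↥(heckeLatticeAlgebra N ∅)) :
    gluePsi N f t = glueCoeff N 1 ((t : Module.End ℤ ↥(intLattice N 2)) f) := rfl

theorem gluePsi_injective {s : ℕ → ℤ} (hs : GlueSeq N s) : Function.Injective (gluePsi N) := by
  rw [← LinearMap.ker_eq_bot, LinearMap.ker_eq_bot']
  intro f hf
  apply glue_eq_zero_of_coeff
  intro k hk
  obtain ⟨P, hP, -⟩ := glue_exists_heckePoly N hs k hk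
  rw [← hP f, ← gluePsi_apply, hf]
  rfl

theorem gluePsiT_injective {s : ℕ → ℤ} (hs : GlueSeq N s) : Function.Injective (gluePsiT N) := by
  rw [← LinearMap.ker_eq_bot, LinearMap.ker_eq_bot']
  intro t ht
  apply Subtype.ext
  apply LinearMap.ext
  intro f
  change (t : Module.End ℤ ↥(intLattice N 2)) f = 0
  apply gluePsi_injective N hs
  rw [map_zero]
  ext t'
  rw [gluePsi_apply, LinearMap.zero_apply]
  -- a_1(t' (t f)) = a_1(t (t' f)) = 0
  have hcomm : (t' : Module.End ℤ ↥(intLattice N 2)) ((t : Module.End ℤ ↥(intLattice N 2)) f) =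
      (t : Module.End ℤ ↥(intLattice N 2)) ((t' : Module.End ℤ ↥(intLattice N 2)) f) := by
    have h1 : ((t' * t : ↥(heckeLatticeAlgebra N ∅)) : Module.End ℤ ↥(intLattice N 2)) =
        ((t * t' : ↥(heckeLatticeAlgebra N ∅)) : Module.End ℤ ↥(intLattice N 2)) := by
      rw [mul_comm]
    exact LinearMap.congr_fun h1 f
  rw [hcomm, ← gluePsiT_apply, ht]
  rfl

theorem glue_finrank_eq {s : ℕ → ℤ} (hs : GlueSeq N s) :
    Module.finrank ℤ ↥(heckeLatticeAlgebra N ∅) = Module.finrank ℤ ↥(intLattice N 2) := by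
  have := intLattice.moduleFinite N
  have := intLattice.moduleFree N
  have h1 := LinearMap.finrank_le_finrank_of_injective (gluePsi_injective N hs)
  have h2 := LinearMap.finrank_le_finrank_of_injective (gluePsiT_injective N hs)
  rw [Module.finrank_linearMap_self] at h1 h2
  omega

/-- **Duality.** Every additive functional on the lattice Hecke algebra is `t ↦ a_1(t f)`
for a (unique) lattice form `f`. -/
theorem gluePsi_surjective {s : ℕ → ℤ} (hs : GlueSeq N s) : Function.Surjective (gluePsi N) := by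
  have := intLattice.moduleFinite N
  have := intLattice.moduleFree N
  intro φ
  have hrank : Module.finrank ℤ (↥(heckeLatticeAlgebra N ∅) →ₗ[ℤ] ℤ) ≤
      Module.finrank ℤ ↥(intLattice N 2) := by
    rw [Module.finrank_linearMap_self, glue_finrank_eq N hs]
  obtain ⟨c, hc, f, hf⟩ := glue_exists_smul_mem_range (gluePsi N) (gluePsi_injective N hs) hrank φ
  -- all coefficients of `f` are divisible by `c`
  have hdiv : ∀ k : ℕ, 1 ≤ k → c ∣ glueCoeff N k f := by
    intro k hk
    obtain ⟨P, hP, -⟩ := glue_exists_heckePoly N hs k hk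
    rw [← hP f, ← gluePsi_apply, hf]
    exact ⟨φ (gluePi N P), rfl⟩
  obtain ⟨g, rfl⟩ := glue_exists_smul_of_dvd N c hc f hdiv
  refine ⟨g, ?_⟩
  rw [map_smul] at hf
  exact smul_right_injective _ hc hf

/-- **Upper-bound glue.** If every lattice form congruent to `s` modulo `M` forces `M ∣ n`
(for all `M ≠ 0`), and `n ≠ 0`, then some Hecke polynomial in the kernel of `π` has
Eisenstein value exactly `n`. -/
theorem glue_upper {s : ℕ → ℤ} (hs : GlueSeq N s) (n : ℕ) (hn : n ≠ 0)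
    (hB : ∀ M : ℕ, M ≠ 0 → ∀ f : ↥(intLattice N 2),
      (∀ k : ℕ, 1 ≤ k → (M : ℤ) ∣ glueCoeff N k f - s k) → M ∣ n) :
    ∃ P : HeckeAlg, gluePi N P = 0 ∧ glueEis N P = n := by
  classical
  -- the ideal J = eis(ker π) of ℤ
  set J : Ideal ℤ := Ideal.map (glueEis N) (RingHom.ker (gluePi N)) with hJ
  have heis_surj : Function.Surjective (glueEis N) := fun a => ⟨MvPolynomial.C a, glueEis_C N a⟩
  have hJmem : ∀ a : ℤ, a ∈ J ↔ ∃ P : HeckeAlg, gluePi N P = 0 ∧ glueEis N P = a := by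
    intro a
    rw [hJ, Ideal.mem_map_iff_of_surjective _ heis_surj]
    simp only [RingHom.mem_ker]
  -- generator of J
  obtain ⟨m, hm⟩ : ∃ m : ℤ, J = Ideal.span {m} := ⟨_, (Ideal.span_singleton_generator J).symm⟩
  -- the modulus
  set M : ℕ := if m = 0 then 2 * n else m.natAbs with hMdef
  have hM0 : M ≠ 0 := by
    rw [hMdef]
    split_ifs with h
    · omega
    · exact Int.natAbs_ne_zero.mpr h
  have hJM : ∀ a ∈ J, (M : ℤ) ∣ a := by
    intro a ha
    rw [hm, Ideal.mem_span_singleton] at ha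
    rw [hMdef]
    split_ifs with h
    · rw [h, zero_dvd_iff] at ha
      rw [ha]
      exact dvd_zero _
    · exact Int.natAbs_dvd.mpr ha
  -- ring hom χ : HeckeAlg → ZMod M killing ker π, hence φ_M : T → ZMod M
  set χ : HeckeAlg →+* ZMod M := (Int.castRingHom (ZMod M)).comp (glueEis N) with hχ
  have hker : RingHom.ker (gluePi N) ≤ RingHom.ker χ := by
    intro P hP
    rw [RingHom.mem_ker] at hP ⊢
    rw [hχ, RingHom.comp_apply, Int.coe_castRingHom, ZMod.intCast_zmod_eq_zero_iff_dvd]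
    exact hJM _ ((hJmem _).mpr ⟨P, hP, rfl⟩)
  set ρ : ↥(heckeLatticeAlgebra N ∅) →+* ZMod M :=
    RingHom.liftOfSurjective (gluePi N) (gluePi_surjective N) ⟨χ, hker⟩ with hρ
  have hρπ : ∀ P, ρ (gluePi N P) = χ P := fun P =>
    RingHom.liftOfRightInverse_comp_apply _ _ _ ⟨χ, hker⟩ P
  -- lift ρ to an additive functional φ : T → ℤ
  have hcast_surj : Function.Surjective (Int.castAddHom (ZMod M)).toIntLinearMap :=
    ZMod.intCast_surjective
  obtain ⟨φ, hφ⟩ := Module.projective_lifting_property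
    (Int.castAddHom (ZMod M)).toIntLinearMap ρ.toAddMonoidHom.toIntLinearMap hcast_surj
  have hφ' : ∀ t, ((φ t : ℤ) : ZMod M) = ρ t := fun t => LinearMap.congr_fun hφ t
  -- the dual form
  obtain ⟨f, hf⟩ := gluePsi_surjective N hs φ
  have hfM : ∀ k : ℕ, 1 ≤ k → (M : ℤ) ∣ glueCoeff N k f - s k := by
    intro k hk
    obtain ⟨P, hP, hPe⟩ := glue_exists_heckePoly N hs k hk
    rw [← hP f, ← gluePsi_apply, hf, ← ZMod.intCast_zmod_eq_zero_iff_dvd, Int.cast_sub,
      hφ', hρπ, hχ, RingHom.comp_apply, hPe, Int.coe_castRingHom, sub_self]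
  have hMn : M ∣ n := hB M hM0 f hfM
  -- conclude
  have hm0 : m ≠ 0 := by
    intro h
    rw [hMdef, if_pos h] at hMn
    have := Nat.le_of_dvd (Nat.pos_of_ne_zero hn) hMn
    omega
  rw [hMdef, if_neg hm0] at hMn
  have : (n : ℤ) ∈ J := by
    rw [hm, Ideal.mem_span_singleton]
    exact Int.natAbs_dvd.mp (Int.natCast_dvd_natCast.mpr hMn)
  exact (hJmem _).mp this

end

end Fermat.Agent.S16.Glue
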