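import Fermat.Agent.S16.Iface
import Fermat.Agent.S16.Glue.SigmaP
import Fermat.Agent.S16.Glue.Main

/-!
# P-EIS GLUE: the interfaces `IfaceGlue` (G-GLUE) and `IfaceDual` (G-DUAL)
-/

set_option autoImplicit false

open ModularCurve CuspForm ModularFormClass CongruenceSubgroup

namespace Fermat.Agent.S16

noncomputable section

namespace Glue

/-- `σ'` is an Eisenstein-type sequence of level `p`. -/
theorem glueSeq_sigmaP (p : ℕ) (hp : p.Prime) : GlueSeq p (fun k => (sigmaP p k : ℤ)) where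
  one := by
    simp only [SigmaP.sigmaP_one p hp, Nat.cast_one]
  mul_of_dvd := by
    intro q hq hqp k _
    have hqp' : q = p := (Nat.prime_dvd_prime_iff_eq hq hp).mp hqp
    subst hqp'
    simp only [SigmaP.sigmaP_mul_self q hp k]
  mul_of_not_dvd := by
    intro ℓ hℓ hℓp k hk
    have hne : ℓ ≠ p := fun h => hℓp (h ▸ dvd_rfl)
    have h := SigmaP.sigmaP_mul_prime p ℓ hp hℓ hne k hk
    have h' : ((sigmaP p (k * ℓ) + (if ℓ ∣ k then ℓ * sigmaP p (k / ℓ) else 0) : ℕ) : ℤ) =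
        (((1 + ℓ) * sigmaP p k : ℕ) : ℤ) := by rw [h]
    push_cast at h'
    rw [← h']

/-- a form in the lattice with prescribed congruences, from divisibility of all Eisenstein
values on the kernel of `π`. -/
theorem glue_exists_form_of_dvd (N : ℕ) [NeZero N] {s : ℕ → ℤ} (hs : GlueSeq N s) (M : ℕ)
    (h : ∀ P : HeckeAlg, gluePi N P = 0 → (M : ℤ) ∣ glueEis N P) :
    ∃ f : ↥(intLattice N 2), ∀ k : ℕ, 1 ≤ k → (M : ℤ) ∣ glueCoeff N k f - s k := by
  classical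
  set χ : HeckeAlg →+* ZMod M := (Int.castRingHom (ZMod M)).comp (glueEis N) with hχ
  have hker : RingHom.ker (gluePi N) ≤ RingHom.ker χ := by
    intro P hP
    rw [RingHom.mem_ker] at hP ⊢
    rw [hχ, RingHom.comp_apply, Int.coe_castRingHom, ZMod.intCast_zmod_eq_zero_iff_dvd]
    exact h P hP
  set ρ : ↥(heckeLatticeAlgebra N ∅) →+* ZMod M :=
    RingHom.liftOfSurjective (gluePi N) (gluePi_surjective N) ⟨χ, hker⟩ with hρ
  have hρπ : ∀ P, ρ (gluePi N P) = χ P := fun P =>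
    RingHom.liftOfRightInverse_comp_apply _ _ _ ⟨χ, hker⟩ P
  have hcast_surj : Function.Surjective (Int.castAddHom (ZMod M)).toIntLinearMap :=
    ZMod.intCast_surjective
  obtain ⟨φ, hφ⟩ := Module.projective_lifting_property
    (Int.castAddHom (ZMod M)).toIntLinearMap ρ.toAddMonoidHom.toIntLinearMap hcast_surj
  have hφ' : ∀ t, ((φ t : ℤ) : ZMod M) = ρ t := fun t => LinearMap.congr_fun hφ t
  obtain ⟨f, hf⟩ := gluePsi_surjective N hs φ
  refine ⟨f, fun k hk => ?_⟩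
  obtain ⟨P, hP, hPe⟩ := glue_exists_heckePoly N hs k hk
  rw [← hP f, ← gluePsi_apply, hf, ← ZMod.intCast_zmod_eq_zero_iff_dvd, Int.cast_sub,
    hφ', hρπ, hχ, RingHom.comp_apply, hPe, Int.coe_castRingHom, sub_self]

/-- from `LBHecke`- and `UBHecke`-type statements: some `P` in the kernel has value `n`. -/
theorem glue_exists_of_lb_ub (N : ℕ) [NeZero N] (n : ℕ)
    (hLB : ∀ Q : HeckeAlg, gluePi N Q = 0 → (n : ℤ) ∣ glueEis N Q)
    (hUB : ∀ ℓ : ℕ, ℓ.Prime → ∃ Q : HeckeAlg, gluePi N Q = 0 ∧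
      ¬ ((ℓ : ℤ) ^ (padicValNat ℓ n + 1) ∣ glueEis N Q)) :
    ∃ P : HeckeAlg, gluePi N P = 0 ∧ glueEis N P = n := by
  classical
  set J : Ideal ℤ := Ideal.map (glueEis N) (RingHom.ker (gluePi N)) with hJ
  have heis_surj : Function.Surjective (glueEis N) := fun a => ⟨MvPolynomial.C a, glueEis_C N a⟩
  have hJmem : ∀ a : ℤ, a ∈ J ↔ ∃ P : HeckeAlg, gluePi N P = 0 ∧ glueEis N P = a := by
    intro a
    rw [hJ, Ideal.mem_map_iff_of_surjective _ heis_surj]
    simp only [RingHom.mem_ker]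
  obtain ⟨m, hm⟩ : ∃ m : ℤ, J = Ideal.span {m} := ⟨_, (Ideal.span_singleton_generator J).symm⟩
  have hmJ : m ∈ J := by rw [hm]; exact Ideal.mem_span_singleton_self m
  obtain ⟨P₀, hP₀, hP₀m⟩ := (hJmem m).mp hmJ
  have hnm : (n : ℤ) ∣ m := hP₀m ▸ hLB P₀ hP₀
  have hmdvd : ∀ Q : HeckeAlg, gluePi N Q = 0 → m ∣ glueEis N Q := by
    intro Q hQ
    have : glueEis N Q ∈ J := (hJmem _).mpr ⟨Q, hQ, rfl⟩
    rwa [hm, Ideal.mem_span_singleton] at this
  -- `|m| ∣ n`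
  have hmn : m.natAbs ∣ n := by
    rw [Nat.dvd_iff_prime_pow_dvd_dvd]
    intro ℓ k hℓ hk
    obtain ⟨Q, hQ, hQn⟩ := hUB ℓ hℓ
    have hkle : k ≤ padicValNat ℓ n := by
      by_contra hlt
      have hlt : padicValNat ℓ n + 1 ≤ k := by omega
      apply hQn
      have h1 : (ℓ : ℤ) ^ (padicValNat ℓ n + 1) ∣ (ℓ : ℤ) ^ k := pow_dvd_pow _ hlt
      have h2 : ((ℓ ^ k : ℕ) : ℤ) ∣ m := Int.natCast_dvd.mpr hk
      rw [Nat.cast_pow] at h2
      exact (h1.trans h2).trans (hmdvd Q hQ)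
    exact (pow_dvd_pow ℓ hkle).trans pow_padicValNat_dvd
  have hnm' : n ∣ m.natAbs := Int.natCast_dvd.mp hnm
  have heq : m.natAbs = n := Nat.dvd_antisymm hmn hnm'
  have : (n : ℤ) ∈ J := by
    rw [hm, Ideal.mem_span_singleton, ← heq]
    exact Int.dvd_natAbs.mpr dvd_rfl
  exact (hJmem _).mp this

end Glue

/-- positivity of the Eisenstein numerator. -/
theorem glue_eisensteinNumerator_ne_zero (p : ℕ) (hp : p.Prime) : eisensteinNumerator p ≠ 0 := by
  unfold eisensteinNumerator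
  have h1 : 0 < p - 1 := by have := hp.two_le; omega
  have hg : Nat.gcd (p - 1) 12 ∣ p - 1 := Nat.gcd_dvd_left _ _
  have hgpos : 0 < Nat.gcd (p - 1) 12 := Nat.gcd_pos_of_pos_left _ h1
  exact (Nat.div_pos (Nat.le_of_dvd h1 hg) hgpos).ne'

/-- **G-GLUE.** -/
theorem ifaceGlue (p : ℕ) [Fact p.Prime] : IfaceGlue p := by
  intro hLB hUB
  exact Glue.glue_card_eq p (eisensteinNumerator p) hLB
    (Glue.glue_exists_of_lb_ub p (eisensteinNumerator p) hLB hUB)

/-- **G-DUAL.** -/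
theorem ifaceDual (p : ℕ) [Fact p.Prime] : IfaceDual p := by
  intro M _ h
  have hp : p.Prime := Fact.out
  obtain ⟨f, hf⟩ := Glue.glue_exists_form_of_dvd p (Glue.glueSeq_sigmaP p hp) M h
  refine ⟨(f : CuspForm (Gamma0 p) 2), fun k hk => ?_⟩
  obtain ⟨x, hx⟩ := hf k hk
  refine ⟨x, ?_⟩
  have h1 : Glue.glueCoeff p k f = 1 * (sigmaP p k : ℤ) + (M : ℤ) * x := by linarith
  rw [← h1]
  exact (Glue.glueCoeff_spec p k f).symm

end

end Fermat.Agent.S16
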