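import Fermat.Agent.S16.Glue.Coeff

/-!
# P-EIS GLUE, part 3: the Hecke polynomials `P_n` and the lower-bound glue
-/

set_option autoImplicit false

open ModularCurve CuspForm ModularFormClass CongruenceSubgroup

namespace Fermat.Agent.S16.Glue

noncomputable section

/-- Hecke-type recursion for an integer sequence (Eisenstein type of level `N`). -/
structure GlueSeq (N : ℕ) (s : ℕ → ℤ) : Prop where
  one : s 1 = 1
  mul_of_dvd : ∀ q : ℕ, q.Prime → q ∣ N → ∀ k : ℕ, 1 ≤ k → s (k * q) = s k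
  mul_of_not_dvd : ∀ ℓ : ℕ, ℓ.Prime → ¬ ℓ ∣ N → ∀ k : ℕ, 1 ≤ k →
    s (k * ℓ) + (if ℓ ∣ k then (ℓ : ℤ) * s (k / ℓ) else 0) = (1 + (ℓ : ℤ)) * s k

variable (N : ℕ) [NeZero N]

theorem gluePi_sub_apply (P Q : HeckeAlg) (f : ↥(intLattice N 2)) :
    (gluePi N (P - Q) : Module.End ℤ ↥(intLattice N 2)) f =
      (gluePi N P : Module.End ℤ ↥(intLattice N 2)) f -
        (gluePi N Q : Module.End ℤ ↥(intLattice N 2)) f := by
  rw [map_sub]
  rfl

theorem gluePi_one_apply (f : ↥(intLattice N 2)) :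
    (gluePi N 1 : Module.End ℤ ↥(intLattice N 2)) f = f := by
  rw [map_one]
  rfl

omit [NeZero N] in
theorem glueEis_X_of_dvd {q : Nat.Primes} (h : (q : ℕ) ∣ N) :
    glueEis N (MvPolynomial.X q) = 1 := by
  rw [glueEis_X, eisensteinSystem_of_dvd h]

omit [NeZero N] in
theorem glueEis_X_of_not_dvd {ℓ : Nat.Primes} (h : ¬ (ℓ : ℕ) ∣ N) :
    glueEis N (MvPolynomial.X ℓ) = 1 + (ℓ : ℕ) := by
  rw [glueEis_X, eisensteinSystem_of_not_dvd h]

/-- **The Hecke polynomials.** For every `n ≥ 1` there is `P_n` with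
`a_1(P_n f) = a_n(f)` and Eisenstein value `s n`. -/
theorem glue_exists_heckePoly {s : ℕ → ℤ} (hs : GlueSeq N s) (n : ℕ) (hn : 1 ≤ n) :
    ∃ P : HeckeAlg,
      (∀ f : ↥(intLattice N 2),
        glueCoeff N 1 ((gluePi N P : Module.End ℤ ↥(intLattice N 2)) f) = glueCoeff N n f) ∧
      glueEis N P = s n := by
  induction n using Nat.strong_induction_on with
  | _ n ih =>
    rcases Nat.lt_or_ge n 2 with h2 | h2
    · have h1 : n = 1 := by omega
      subst h1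
      exact ⟨1, fun f => by rw [gluePi_one_apply], by rw [map_one, hs.one]⟩
    · -- n ≥ 2
      have hℓ : (n.minFac).Prime := Nat.minFac_prime (by omega)
      set ℓ := n.minFac with hℓdef
      obtain ⟨m, hm⟩ : ℓ ∣ n := Nat.minFac_dvd n
      have hℓ2 : 2 ≤ ℓ := hℓ.two_le
      have hm1 : 1 ≤ m := by
        rcases Nat.eq_zero_or_pos m with h0 | h0
        · rw [h0, mul_zero] at hm; omega
        · exact h0
      have hmn : m < n := by
        rw [hm]
        nlinarith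
      have hnm : n = m * ℓ := by rw [hm, mul_comm]
      obtain ⟨Pm, hPm, hPme⟩ := ih m hmn hm1
      by_cases hℓN : ℓ ∣ N
      · refine ⟨Pm * MvPolynomial.X ⟨ℓ, hℓ⟩, fun f => ?_, ?_⟩
        · rw [gluePi_mul_apply, hPm, glueCoeff_pi_X_of_dvd N ⟨ℓ, hℓ⟩ hℓN, hnm]
        · rw [map_mul, hPme, glueEis_X_of_dvd N (q := ⟨ℓ, hℓ⟩) hℓN, mul_one, hnm,
            hs.mul_of_dvd ℓ hℓ hℓN m hm1]
      · by_cases hℓm : ℓ ∣ m
        · have hml1 : 1 ≤ m / ℓ := Nat.div_pos (Nat.le_of_dvd hm1 hℓm) hℓ.pos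
          have hmln : m / ℓ < n := lt_of_le_of_lt (Nat.div_le_self m ℓ) hmn
          obtain ⟨Pd, hPd, hPde⟩ := ih (m / ℓ) hmln hml1
          refine ⟨Pm * MvPolynomial.X ⟨ℓ, hℓ⟩ - MvPolynomial.C (ℓ : ℤ) * Pd, fun f => ?_, ?_⟩
          · rw [gluePi_sub_apply, map_sub, gluePi_mul_apply, hPm,
              glueCoeff_pi_X_of_not_dvd N ⟨ℓ, hℓ⟩ hℓN, gluePi_mul_apply, gluePi_C_apply,
              map_smul, hPd, hnm]
            simp only [if_pos hℓm, smul_eq_mul]
            ring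
          · rw [map_sub, map_mul, map_mul, hPme, hPde, glueEis_C,
              glueEis_X_of_not_dvd N (ℓ := ⟨ℓ, hℓ⟩) hℓN, hnm]
            have := hs.mul_of_not_dvd ℓ hℓ hℓN m hm1
            rw [if_pos hℓm] at this
            linarith
        · refine ⟨Pm * MvPolynomial.X ⟨ℓ, hℓ⟩, fun f => ?_, ?_⟩
          · rw [gluePi_mul_apply, hPm, glueCoeff_pi_X_of_not_dvd N ⟨ℓ, hℓ⟩ hℓN, hnm]
            simp only [if_neg hℓm, add_zero]
          · rw [map_mul, hPme, glueEis_X_of_not_dvd N (ℓ := ⟨ℓ, hℓ⟩) hℓN, hnm]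
            have := hs.mul_of_not_dvd ℓ hℓ hℓN m hm1
            rw [if_neg hℓm, add_zero] at this
            linarith

/-- commutation of the action (the lattice Hecke algebra is commutative). -/
theorem gluePi_comm_apply (P Q : HeckeAlg) (f : ↥(intLattice N 2)) :
    (gluePi N P : Module.End ℤ ↥(intLattice N 2))
        ((gluePi N Q : Module.End ℤ ↥(intLattice N 2)) f) =
      (gluePi N Q : Module.End ℤ ↥(intLattice N 2))
        ((gluePi N P : Module.End ℤ ↥(intLattice N 2)) f) := by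
  rw [← gluePi_mul_apply, ← gluePi_mul_apply, mul_comm]

/-- **Eigen-congruence.** If `f ≡ s (mod M)` coefficientwise then
`a_k(P f) ≡ eis(P) · s k (mod M)` for every Hecke polynomial `P`. -/
theorem glue_congr_of_congr {s : ℕ → ℤ} (hs : GlueSeq N s) (M : ℤ) (f : ↥(intLattice N 2))
    (hf : ∀ k : ℕ, 1 ≤ k → M ∣ glueCoeff N k f - s k) (P : HeckeAlg) :
    ∀ k : ℕ, 1 ≤ k →
      M ∣ glueCoeff N k ((gluePi N P : Module.End ℤ ↥(intLattice N 2)) f) - glueEis N P * s k := by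
  induction P using MvPolynomial.induction_on with
  | C a =>
    intro k hk
    rw [gluePi_C_apply, map_smul, glueEis_C, smul_eq_mul, ← mul_sub]
    exact Dvd.dvd.mul_left (hf k hk) a
  | add P Q hP hQ =>
    intro k hk
    obtain ⟨c, hc⟩ := hP k hk
    obtain ⟨d, hd⟩ := hQ k hk
    refine ⟨c + d, ?_⟩
    rw [gluePi_add_apply, map_add, map_add (glueEis N)]
    linear_combination hc + hd
  | mul_X P ℓ hP =>
    intro k hk
    rw [mul_comm P, gluePi_mul_apply, map_mul]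
    have hk' : 1 ≤ k * (ℓ : ℕ) := Nat.mul_pos hk ℓ.2.pos
    obtain ⟨c, hc⟩ := hP (k * ℓ) hk'
    by_cases hℓN : (ℓ : ℕ) ∣ N
    · rw [glueCoeff_pi_X_of_dvd N ℓ hℓN, glueEis_X_of_dvd N hℓN, one_mul]
      rw [hs.mul_of_dvd ℓ ℓ.2 hℓN k hk] at hc
      exact ⟨c, hc⟩
    · rw [glueCoeff_pi_X_of_not_dvd N ℓ hℓN, glueEis_X_of_not_dvd N hℓN]
      have hrec := hs.mul_of_not_dvd ℓ ℓ.2 hℓN k hk
      by_cases hℓk : (ℓ : ℕ) ∣ k
      · have hkl : 1 ≤ k / (ℓ : ℕ) := Nat.div_pos (Nat.le_of_dvd hk hℓk) ℓ.2.pos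
        obtain ⟨d, hd⟩ := hP (k / ℓ) hkl
        rw [if_pos hℓk] at hrec ⊢
        refine ⟨c + ((ℓ : ℕ) : ℤ) * d, ?_⟩
        linear_combination hc + ((ℓ : ℕ) : ℤ) * hd + glueEis N P * hrec
      · rw [if_neg hℓk, add_zero] at hrec ⊢
        refine ⟨c, ?_⟩
        linear_combination hc + glueEis N P * hrec

/-- **Lower-bound glue.** A lattice form congruent to `s` modulo `n` forces `n ∣ eis P`
for every `P` in the kernel of `π`. -/
theorem glue_lower {s : ℕ → ℤ} (hs : GlueSeq N s) (n : ℤ) (f : ↥(intLattice N 2))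
    (hf : ∀ k : ℕ, 1 ≤ k → n ∣ glueCoeff N k f - s k) (P : HeckeAlg) (hP : gluePi N P = 0) :
    n ∣ glueEis N P := by
  have h := glue_congr_of_congr N hs n f hf P 1 le_rfl
  rw [hP, hs.one, mul_one] at h
  have h0 : glueCoeff N 1 (((0 : ↥(heckeLatticeAlgebra N ∅)) : Module.End ℤ ↥(intLattice N 2)) f)
      = 0 := by
    change glueCoeff N 1 ((0 : Module.End ℤ ↥(intLattice N 2)) f) = 0
    rw [LinearMap.zero_apply, map_zero]
  rw [h0, zero_sub] at h
  exact (dvd_neg.mp h)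

end

end Fermat.Agent.S16.Glue
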