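import Fermat.Agent.S16.Glue.LBForm

/-!
# P-EIS (S16), LB wrap: from the theta form to the lower bound in Hecke form

`f := E - (p - 1) G` with `E` from `IfaceEisP` and `G` from `IfaceTheta` is a cusp form
(`IfaceCusp2`) with integral `q`-expansion congruent to `24 δ` modulo `2 (p - 1)`; hence
`LBHecke p` by `ifaceLBForm`.
-/

set_option autoImplicit false

open UpperHalfPlane ModularForm ModularFormClass MatrixGroups CongruenceSubgroup

namespace Fermat.Agent.S16

namespace LBWrap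

/-- the cusp form `E - (p - 1) G` -/
theorem exists_congDelta (p : ℕ) [Fact p.Prime] (hT : IfaceTheta p) (hE : IfaceEisP p)
    (hC : IfaceCusp2 p) :
    ∃ f : CuspForm (Gamma0 p) 2, CongDelta p 24 (2 * ((p : ℤ) - 1)) f := by
  obtain ⟨G, hG0, hG⟩ := hT
  obtain ⟨E, hE0, hEk⟩ := hE
  have hper := CongruenceSubgroup.one_mem_strictPeriods_Gamma0 p
  set F : ModularForm (Gamma0 p) 2 := E - ((p : ℂ) - 1) • G with hF
  have hqF : qExpansion 1 (⇑F) = qExpansion 1 (⇑E) - ((p : ℂ) - 1) • qExpansion 1 (⇑G) := by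
    have h1 : (⇑F : ℍ → ℂ) = ⇑E - ⇑(((p : ℂ) - 1) • G) := rfl
    have h2 : (⇑(((p : ℂ) - 1) • G) : ℍ → ℂ) = ((p : ℂ) - 1) • ⇑G := rfl
    rw [h1, ModularForm.qExpansion_sub one_pos hper E (((p : ℂ) - 1) • G), h2,
      ModularForm.qExpansion_smul one_pos hper ((p : ℂ) - 1) G]
  have hF0 : PowerSeries.coeff 0 (qExpansion 1 (⇑F)) = 0 := by
    rw [hqF, map_sub, PowerSeries.coeff_smul, hE0, hG0]
    simp
  obtain ⟨f, hf⟩ := hC F hF0
  have hfF : (⇑f : ℍ → ℂ) = ⇑F := funext hf
  refine ⟨f, fun k hk => ?_⟩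
  obtain ⟨r, hr⟩ := hG k hk
  refine ⟨-r, ?_⟩
  rw [hfF, hqF, map_sub, PowerSeries.coeff_smul, hEk k hk, hr]
  push_cast
  simp only [smul_eq_mul]
  ring

end LBWrap

/-- the lower bound from the theta form -/
theorem lbHecke_of_theta (p : ℕ) [Fact p.Prime] (hT : IfaceTheta p) (hE : IfaceEisP p)
    (hC : IfaceCusp2 p) : LBHecke p :=
  ifaceLBForm p (LBWrap.exists_congDelta p hT hE hC)

/-- the lower bound is trivial when `n = 1` -/
theorem lbHecke_of_numerator_eq_one (p : ℕ) [Fact p.Prime]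
    (h : ModularCurve.eisensteinNumerator p = 1) : LBHecke p := by
  intro Q _
  rw [h]
  exact one_dvd _

/-- the lower bound: the theta form is only needed for `p ≠ 2` -/
theorem lbHecke_of_ifaces (p : ℕ) [Fact p.Prime] (hT : p ≠ 2 → IfaceTheta p)
    (hE : IfaceEisP p) (hC : IfaceCusp2 p) : LBHecke p := by
  by_cases h2 : p = 2
  · apply lbHecke_of_numerator_eq_one
    subst h2
    decide
  · exact lbHecke_of_theta p (hT h2) hE hC

end Fermat.Agent.S16
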