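/-
P-EIS (S16), G-DUAL second seat (helper64): two pure-algebra lemmas on pairings of
finitely generated free abelian groups.
-/
import Mathlib

namespace Fermat.Agent.S16

open Module

/-- Every additive character `T → ZMod M` of a finitely generated free abelian group lifts to
a linear form `T → ℤ`. -/
theorem pair_lift {T : Type*} [AddCommGroup T] [Module.Free ℤ T] [Module.Finite ℤ T] (M : ℕ)
    (χ : T →+ ZMod M) : ∃ ψ : T →ₗ[ℤ] ℤ, ∀ t, ((ψ t : ℤ) : ZMod M) = χ t := by
  classical
  let b := Module.Free.chooseBasis ℤ T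
  have hn : ∀ i, ∃ n : ℤ, (n : ZMod M) = χ (b i) := fun i ↦ ZMod.intCast_surjective _
  choose n hn using hn
  refine ⟨b.constr ℤ n, fun t ↦ ?_⟩
  have h : (Int.castAddHom (ZMod M)).toIntLinearMap ∘ₗ (b.constr ℤ n) = χ.toIntLinearMap := by
    apply b.ext
    intro i
    simp [hn]
  exact LinearMap.congr_fun h t

/-- A pairing of finitely generated free abelian groups which is nondegenerate on both sides
and saturated on the right is perfect on the right: every linear form on `T` is represented
by an element of `L`. -/
theorem pair_surjective {T L : Type*} [AddCommGroup T] [AddCommGroup L] [Module.Free ℤ T]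
    [Module.Finite ℤ T] [Module.Free ℤ L] [Module.Finite ℤ L] (β : T →ₗ[ℤ] L →ₗ[ℤ] ℤ)
    (hT : ∀ t, (∀ f, β t f = 0) → t = 0) (hL : ∀ f, (∀ t, β t f = 0) → f = 0)
    (hsat : ∀ (d : ℤ) (g : L), d ≠ 0 → (∀ t, d ∣ β t g) → ∃ g' : L, d • g' = g)
    (ψ : T →ₗ[ℤ] ℤ) : ∃ f : L, ∀ t, β t f = ψ t := by
  classical
  let bT := Module.Free.chooseBasis ℤ T
  let bL₀ := Module.Free.chooseBasis ℤ L
  -- the two injections give equality of ranks
  have hinjT : Function.Injective β := by
    intro t t' h
    have : t - t' = 0 := hT _ fun f ↦ by rw [map_sub, LinearMap.sub_apply, h, sub_self]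
    exact sub_eq_zero.1 this
  have hinjL : Function.Injective β.flip := by
    intro f f' h
    have : f - f' = 0 := hL _ fun t ↦ by
      have := LinearMap.congr_fun h t
      simp only [LinearMap.flip_apply] at this
      rw [map_sub, this, sub_self]
    exact sub_eq_zero.1 this
  have h1 : finrank ℤ T ≤ finrank ℤ L := by
    have := LinearMap.finrank_le_finrank_of_injective hinjT
    rwa [Module.finrank_linearMap_self] at this
  have h2 : finrank ℤ L ≤ finrank ℤ T := by
    have := LinearMap.finrank_le_finrank_of_injective hinjL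
    rwa [Module.finrank_linearMap_self] at this
  have hcard : Fintype.card (Module.Free.ChooseBasisIndex ℤ L) =
      Fintype.card (Module.Free.ChooseBasisIndex ℤ T) := by
    rw [← Module.finrank_eq_card_chooseBasisIndex, ← Module.finrank_eq_card_chooseBasisIndex]
    exact le_antisymm h2 h1
  let e := Fintype.equivOfCardEq hcard
  let bL := bL₀.reindex e
  -- the Gram matrix
  let A : Matrix (Module.Free.ChooseBasisIndex ℤ T) (Module.Free.ChooseBasisIndex ℤ T) ℤ :=
    Matrix.of fun i j ↦ β (bT i) (bL j)
  have hA : ∀ x : Module.Free.ChooseBasisIndex ℤ T → ℤ, ∀ i,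
      (A.mulVec x) i = β (bT i) (∑ j, x j • bL j) := by
    intro x i
    simp only [Matrix.mulVec, dotProduct, A, Matrix.of_apply, map_sum, map_smul, smul_eq_mul]
    exact Finset.sum_congr rfl fun j _ ↦ mul_comm _ _
  have hβ_ext : ∀ g : L, (∀ i, β (bT i) g = 0) → g = 0 := by
    intro g hg
    apply hL
    intro t
    have : β.flip g = 0 := by
      apply bT.ext
      intro i
      simpa using hg i
    simpa using LinearMap.congr_fun this t
  have hdet : A.det ≠ 0 := by
    intro h0
    obtain ⟨v, hv, hv0⟩ := Matrix.exists_mulVec_eq_zero_iff.2 h0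
    apply hv
    have hg : (∑ j, v j • bL j) = 0 := by
      apply hβ_ext
      intro i
      rw [← hA, hv0]
      rfl
    have := (Fintype.linearIndependent_iff.1 bL.linearIndependent) v hg
    funext j
    exact this j
  -- solve `A x = det A • c`
  let c : Module.Free.ChooseBasisIndex ℤ T → ℤ := fun i ↦ ψ (bT i)
  let x := A.adjugate.mulVec c
  have hx : A.mulVec x = A.det • c := by
    simp only [x, Matrix.mulVec_mulVec, Matrix.mul_adjugate, Matrix.smul_mulVec,
      Matrix.one_mulVec]
  set g : L := ∑ j, x j • bL j with hg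
  have hgβ : ∀ t, β t g = A.det * ψ t := by
    intro t
    have : β.flip g = A.det • ψ := by
      apply bT.ext
      intro i
      simp only [LinearMap.flip_apply, LinearMap.smul_apply, smul_eq_mul]
      rw [hg, ← hA, hx]
      rfl
    simpa using LinearMap.congr_fun this t
  obtain ⟨g', hg'⟩ := hsat A.det g hdet fun t ↦ ⟨ψ t, hgβ t⟩
  refine ⟨g', fun t ↦ ?_⟩
  have := hgβ t
  rw [← hg', map_smul, smul_eq_mul] at this
  exact mul_left_cancel₀ hdet this

end Fermat.Agent.S16
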