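import Fermat.Agent.S16.Iface
import Fermat.Agent.S16.Glue.SigmaP
import Fermat.Agent.S49.QCoeff

/-!
# P-EIS (S16), G-QK: the Hecke polynomials `Q_k`

For every `k ≥ 1` there is `Q_k ∈ ℤ[X_ℓ]` with `a_1(Q_k(T) f) = a_k(f)` for every cusp form
`f ∈ S₂(Γ₀(p))` and `Q_k(eis) = σ'(k)`.
-/

set_option autoImplicit false

open UpperHalfPlane ModularForm ModularFormClass MatrixGroups CongruenceSubgroup

namespace Fermat.Agent.S16

namespace Qk

noncomputable section

set_option linter.unusedSectionVars false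

variable (p : ℕ) [Fact p.Prime]

/-- the action of the abstract Hecke algebra on cusp forms -/
def evalEnd : ModularCurve.HeckeAlg →+* Module.End ℂ (CuspForm (Gamma0 p) 2) :=
  (CuspForm.heckeAlgebra p 2 ∅).val.toRingHom.comp (CuspForm.heckeEvalForms p 2)

lemma evalEnd_apply (Q : ModularCurve.HeckeAlg) :
    evalEnd p Q = ((CuspForm.heckeEvalForms p 2 Q : CuspForm.heckeAlgebra p 2 ∅) :
      Module.End ℂ (CuspForm (Gamma0 p) 2)) := rfl

lemma evalEnd_X_self (L : Nat.Primes) (h : (L : ℕ) ∣ p) :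
    evalEnd p (ModularCurve.heckeGen L) = CuspForm.heckeULin 2 h := by
  rw [evalEnd_apply, CuspForm.heckeEvalForms_heckeGen_of_dvd h]
  rfl

lemma evalEnd_X_of_ne (L : Nat.Primes) (hndvd : ¬ (L : ℕ) ∣ p) :
    evalEnd p (ModularCurve.heckeGen L) = CuspForm.heckeTLin 2 L.2 hndvd := by
  rw [evalEnd_apply, CuspForm.heckeEvalForms_heckeGen_of_not_dvd hndvd]
  rfl

lemma eisEval_X_self (L : Nat.Primes) (h : (L : ℕ) ∣ p) :
    eisEval p (ModularCurve.heckeGen L) = 1 := by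
  change MvPolynomial.aeval (R := ℤ) (ModularCurve.eisensteinSystem p)
    (ModularCurve.heckeGen L) = 1
  rw [ModularCurve.aeval_heckeGen]
  exact ModularCurve.eisensteinSystem_of_dvd h

lemma eisEval_X_of_ne (L : Nat.Primes) (hndvd : ¬ (L : ℕ) ∣ p) :
    eisEval p (ModularCurve.heckeGen L) = 1 + ((L : ℕ) : ℤ) := by
  change MvPolynomial.aeval (R := ℤ) (ModularCurve.eisensteinSystem p)
    (ModularCurve.heckeGen L) = _
  rw [ModularCurve.aeval_heckeGen]
  exact ModularCurve.eisensteinSystem_of_not_dvd hndvd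

/-- the first coefficient as a linear form -/
def a1 : CuspForm (Gamma0 p) 2 →ₗ[ℂ] ℂ := Fermat.Agent.S49.qCoeffLin p 2 1

lemma a1_apply (f : CuspForm (Gamma0 p) 2) :
    a1 p f = PowerSeries.coeff 1 (qExpansion 1 f) := rfl

/-- The property defining `Q_k`. -/
def Good (k : ℕ) (Q : ModularCurve.HeckeAlg) : Prop :=
  eisEval p Q = (sigmaP p k : ℤ) ∧
    ∀ f : CuspForm (Gamma0 p) 2,
      PowerSeries.coeff 1 (qExpansion 1 (evalEnd p Q f)) = PowerSeries.coeff k (qExpansion 1 f)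

lemma good_one : Good p 1 1 := by
  have hp : p.Prime := Fact.out
  refine ⟨?_, fun f => ?_⟩
  · rw [map_one, SigmaP.sigmaP_one p hp]
    simp
  · rw [map_one]
    rfl

lemma good_mul_self {m : ℕ} {Q : ModularCurve.HeckeAlg} (hQ : Good p m Q) (L : Nat.Primes)
    (hL : (L : ℕ) = p) :
    Good p (m * p) (Q * ModularCurve.heckeGen L) := by
  have hp : p.Prime := Fact.out
  have hdvd : (L : ℕ) ∣ p := by rw [hL]
  refine ⟨?_, fun f => ?_⟩
  · rw [map_mul, hQ.1, eisEval_X_self p L hdvd, mul_one, SigmaP.sigmaP_mul_self p hp m]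
  · rw [map_mul, evalEnd_X_self p L hdvd, Module.End.mul_apply, hQ.2]
    have := Fermat.Agent.S49.qCoeff_heckeULin L.2 hdvd f m
    have e : m * (L : ℕ) = m * p := by rw [hL]
    rw [← e]
    exact this

lemma good_mul_prime {m : ℕ} (L : Nat.Primes) (hm : 0 < m) (hne : (L : ℕ) ≠ p)
    {Q Q' : ModularCurve.HeckeAlg} (hQ : Good p m Q)
    (hQ' : (L : ℕ) ∣ m → Good p (m / (L : ℕ)) Q') :
    Good p (m * (L : ℕ)) (Q * ModularCurve.heckeGen L -
      (if (L : ℕ) ∣ m then MvPolynomial.C (((L : ℕ) : ℤ)) * Q' else 0)) := by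
  have hp : p.Prime := Fact.out
  obtain ⟨ℓ, hℓ⟩ := L
  change ℓ ≠ p at hne
  change ℓ ∣ m → Good p (m / ℓ) Q' at hQ'
  change Good p (m * ℓ) (Q * ModularCurve.heckeGen ⟨ℓ, hℓ⟩ -
      (if ℓ ∣ m then MvPolynomial.C ((ℓ : ℤ)) * Q' else 0))
  have hndvd : ¬ ℓ ∣ p := fun h => hne ((Nat.prime_dvd_prime_iff_eq hℓ hp).mp h)
  have hS := SigmaP.sigmaP_mul_prime p ℓ hp hℓ hne m hm
  refine ⟨?_, fun f => ?_⟩
  · rw [map_sub, map_mul, hQ.1, eisEval_X_of_ne p ⟨ℓ, hℓ⟩ hndvd]
    change (sigmaP p m : ℤ) * (1 + (ℓ : ℤ)) - _ = _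
    by_cases hd : ℓ ∣ m
    · rw [if_pos hd, map_mul, (hQ' hd).1]
      rw [if_pos hd] at hS
      have hC : eisEval p (MvPolynomial.C (ℓ : ℤ)) = (ℓ : ℤ) := by
        change MvPolynomial.aeval (R := ℤ) (ModularCurve.eisensteinSystem p)
          (MvPolynomial.C (ℓ : ℤ)) = _
        rw [MvPolynomial.aeval_C]
        rfl
      rw [hC]
      have hS' : ((sigmaP p (m * ℓ) : ℕ) : ℤ) + (ℓ : ℤ) * (sigmaP p (m / ℓ) : ℤ) =
          (1 + (ℓ : ℤ)) * (sigmaP p m : ℤ) := by exact_mod_cast hS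
      linear_combination -hS'
    · rw [if_neg hd, map_zero, sub_zero]
      rw [if_neg hd, add_zero] at hS
      have hS' : ((sigmaP p (m * ℓ) : ℕ) : ℤ) = (1 + (ℓ : ℤ)) * (sigmaP p m : ℤ) := by
        exact_mod_cast hS
      rw [hS']
      ring
  · rw [map_sub, map_mul, evalEnd_X_of_ne p ⟨ℓ, hℓ⟩ hndvd, LinearMap.sub_apply,
      Module.End.mul_apply]
    change PowerSeries.coeff 1 (qExpansion 1
        ((evalEnd p Q (CuspForm.heckeTLin 2 hℓ hndvd f) -
          evalEnd p (if ℓ ∣ m then MvPolynomial.C (ℓ : ℤ) * Q' else 0) f :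
            CuspForm (Gamma0 p) 2))) = _
    have hT := Fermat.Agent.S49.qCoeff_heckeTLin hℓ hndvd f m
    have hlin : PowerSeries.coeff 1 (qExpansion 1
        ((evalEnd p Q (CuspForm.heckeTLin 2 hℓ hndvd f) -
          evalEnd p (if ℓ ∣ m then MvPolynomial.C (ℓ : ℤ) * Q' else 0) f :
            CuspForm (Gamma0 p) 2))) =
        PowerSeries.coeff 1 (qExpansion 1 (evalEnd p Q (CuspForm.heckeTLin 2 hℓ hndvd f))) -
        PowerSeries.coeff 1 (qExpansion 1
          (evalEnd p (if ℓ ∣ m then MvPolynomial.C (ℓ : ℤ) * Q' else 0) f)) :=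
      map_sub (a1 p) _ _
    rw [hlin, hQ.2]
    change qCoeff (⇑(CuspForm.heckeTLin 2 hℓ hndvd f)) m - _ = _
    rw [hT]
    by_cases hd : ℓ ∣ m
    · rw [if_pos hd, if_pos hd, map_mul, Module.End.mul_apply]
      have hC : evalEnd p (MvPolynomial.C (ℓ : ℤ)) = algebraMap ℤ _ (ℓ : ℤ) := by
        rw [evalEnd_apply, CuspForm.heckeEvalForms_C]
        rfl
      rw [hC]
      have hsm : (algebraMap ℤ (Module.End ℂ (CuspForm (Gamma0 p) 2)) (ℓ : ℤ))
          (evalEnd p Q' f) = (ℓ : ℂ) • (evalEnd p Q' f) := by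
        rw [Algebra.algebraMap_eq_smul_one, LinearMap.smul_apply, Module.End.one_apply]
        rw [← Int.cast_smul_eq_zsmul ℂ]
        simp
      rw [hsm]
      have hlin2 : PowerSeries.coeff 1 (qExpansion 1 ((ℓ : ℂ) • (evalEnd p Q' f) :
          CuspForm (Gamma0 p) 2)) =
          (ℓ : ℂ) • PowerSeries.coeff 1 (qExpansion 1 (evalEnd p Q' f)) :=
        map_smul (a1 p) _ _
      rw [hlin2, (hQ' hd).2]
      simp only [qCoeff, smul_eq_mul]
      norm_num
    · rw [if_neg hd, if_neg hd, map_zero, LinearMap.zero_apply]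
      have h0 : PowerSeries.coeff 1 (qExpansion 1 ((0 : CuspForm (Gamma0 p) 2))) = 0 :=
        map_zero (a1 p)
      rw [h0]
      simp [qCoeff]

/-- existence of `Q_k`, by strong induction -/
theorem exists_good (k : ℕ) (hk : 1 ≤ k) : ∃ Q : ModularCurve.HeckeAlg, Good p k Q := by
  have hp : p.Prime := Fact.out
  induction k using Nat.strong_induction_on with
  | _ k ih =>
    rcases Nat.lt_or_ge k 2 with h2 | h2
    · have : k = 1 := by omega
      subst this
      exact ⟨1, good_one p⟩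
    · have hk1 : k ≠ 1 := by omega
      set ℓ := k.minFac with hℓdef
      have hℓ : ℓ.Prime := Nat.minFac_prime hk1
      have hdvd : ℓ ∣ k := Nat.minFac_dvd k
      obtain ⟨m, hm⟩ := hdvd
      have hmpos : 0 < m := by
        rcases Nat.eq_zero_or_pos m with h0 | h0
        · rw [h0] at hm; omega
        · exact h0
      have hkm : k = m * ℓ := by rw [hm, Nat.mul_comm]
      have hmlt : m < k := by
        rw [hkm]
        have := hℓ.two_le
        nlinarith
      obtain ⟨Q, hQ⟩ := ih m hmlt hmpos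
      let L : Nat.Primes := ⟨ℓ, hℓ⟩
      by_cases hℓp : ℓ = p
      · refine ⟨Q * ModularCurve.heckeGen L, ?_⟩
        rw [hkm, hℓp]
        exact good_mul_self p hQ L hℓp
      · by_cases hd : ℓ ∣ m
        · have hml : m / ℓ < k := lt_of_le_of_lt (Nat.div_le_self m ℓ) hmlt
          have hmlpos : 1 ≤ m / ℓ := Nat.div_pos (Nat.le_of_dvd hmpos hd) hℓ.pos
          obtain ⟨Q', hQ'⟩ := ih (m / ℓ) hml hmlpos
          have key := good_mul_prime p L hmpos hℓp hQ (fun _ => hQ')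
          rw [hkm]
          exact ⟨_, key⟩
        · have key := good_mul_prime p L (Q' := 0) hmpos hℓp hQ (fun h => absurd h hd)
          rw [hkm]
          exact ⟨_, key⟩

end

end Qk

/-- **G-QK.** -/
theorem ifaceQk (p : ℕ) [Fact p.Prime] : IfaceQk p := by
  classical
  have h : ∀ k : ℕ, ∃ Q : ModularCurve.HeckeAlg, 1 ≤ k → Qk.Good p k Q := by
    intro k
    by_cases hk : 1 ≤ k
    · obtain ⟨Q, hQ⟩ := Qk.exists_good p k hk
      exact ⟨Q, fun _ => hQ⟩
    · exact ⟨0, fun h => absurd h hk⟩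
  choose Q hQ using h
  refine ⟨Q, fun k hk => ⟨(hQ k hk).1, fun f => ?_⟩⟩
  exact (hQ k hk).2 f

end Fermat.Agent.S16
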